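import Fermat.Agent.ModCurve.Torsion.GaloisHecke

/-!
# Push forward of divisor classes along degeneracy maps

The push forward along a map of function fields on classes, and its compatibility with the
arithmetic Galois action.
-/

set_option autoImplicit false

noncomputable section

namespace FermatAgent.BadRed.Carayol

open AlgebraicCurve ModularCurve
open FermatAgent.Curve (divisorOf IsFunctionField1)
open FermatAgent.ModCurveTorsion

section Generic

variable {K F F' : Type*} [Field K] [IsAlgClosed K] [Field F] [Field F'] [Algebra K F]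
  [Algebra K F'] [IsFunctionField1 K F] [IsFunctionField1 K F'] (φ : F →ₐ[K] F')

/-- Push forward on divisors. -/
def pushDiv : Divisor K F' →+ Divisor K F :=
  Divisor.pushforwardAlong φ (FermatAgent.Curve.isIntegralAlong φ)

/-- The norm along `φ`. -/
def normAlongHom : F' →* F :=
  letI := algebraAlong φ
  Algebra.norm F

theorem pushDiv_divisorOf {f : F'} (hf : f ≠ 0) :
    pushDiv φ (divisorOf f) = divisorOf (normAlongHom φ f) :=
  FermatAgent.Curve.pushforwardAlong_divisorOf φ _ hf

omit [IsAlgClosed K] in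
theorem normAlongHom_ne_zero {f : F'} (hf : f ≠ 0) : normAlongHom φ f ≠ 0 := by
  let := algebraAlong φ
  have := isScalarTower_along φ
  have : FiniteDimensional F F' := FermatAgent.Curve.finiteAlong φ
  exact Algebra.norm_ne_zero_iff.mpr hf

omit [IsAlgClosed K] in
theorem degree_pushDiv (D : Divisor K F') : Divisor.degree (pushDiv φ D) = Divisor.degree D :=
  Divisor.degree_pushforwardAlong _ _ D

omit [IsAlgClosed K] in
theorem pushDiv_mem_degZero {D : Divisor K F'} (hD : D ∈ Divisor.degZero (K := K) (F := F')) :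
    pushDiv φ D ∈ Divisor.degZero (K := K) (F := F) := by
  rwa [Divisor.mem_degZero, degree_pushDiv]

/-- Push forward on classes. -/
def pushPic0 : Pic0 K F' →+ Pic0 K F :=
  QuotientAddGroup.map _ _
    (((pushDiv φ).domRestrict (Divisor.degZero (K := K) (F := F'))).codRestrict _
      fun D => pushDiv_mem_degZero φ D.2) (by
    rintro ⟨D, hD0⟩ hD
    simp only [AddSubgroup.mem_comap, AddSubgroup.mem_addSubgroupOf] at hD ⊢
    obtain ⟨f, hf, hDf⟩ := hD
    show pushDiv φ D ∈ Divisor.principal (K := K) (F := F)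
    rw [show D = divisorOf f from Finsupp.ext hDf, pushDiv_divisorOf φ hf]
    exact FermatAgent.Curve.divisorOf_mem_principal (normAlongHom_ne_zero φ hf))

theorem pushPic0_mk (D : Divisor.degZero (K := K) (F := F')) :
    pushPic0 φ (Pic0.mk D) = Pic0.mk ⟨pushDiv φ D, pushDiv_mem_degZero φ D.2⟩ := rfl

/-- A vanishing push forward makes the norm a constant times an `n`-th power. -/
theorem norm_divisorOf_of_pushPic0 {D : Divisor.degZero (K := K) (F := F')} {n : ℕ} {f : F'}
    (hf : f ≠ 0) (hD : n • (D : Divisor K F') = divisorOf f) (h : pushPic0 φ (Pic0.mk D) = 0) :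
    ∃ g : F, g ≠ 0 ∧ pushDiv φ D = divisorOf g ∧
      divisorOf (normAlongHom φ f) = n • divisorOf (K := K) g := by
  rw [pushPic0_mk] at h
  obtain ⟨g, hg, hgD⟩ := AddSubgroup.mem_addSubgroupOf.mp ((QuotientAddGroup.eq_zero_iff _).mp h)
  refine ⟨g, hg, Finsupp.ext hgD, ?_⟩
  rw [← pushDiv_divisorOf φ hf, ← hD, map_nsmul, show pushDiv φ D = divisorOf g from Finsupp.ext hgD]

theorem semilinear_pushDiv (g : SemilinearAut K F) (g' : SemilinearAut K F')
    (h : ∀ x : F, g' • φ x = φ (g • x)) (D : Divisor K F') :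
    g • pushDiv φ D = pushDiv φ (g' • D) := by
  suffices (semilinearDiv g).comp (pushDiv φ) = (pushDiv φ).comp (semilinearDiv g') from
    DFunLike.congr_fun this D
  refine IsLocalDiv.ext
    ((isLocalDiv_semilinearDiv _).comp (isLocalDiv_pushforwardAlong φ _))
    ((isLocalDiv_pushforwardAlong φ _).comp (isLocalDiv_semilinearDiv _)) fun f hf => ?_
  rw [AddMonoidHom.comp_apply, AddMonoidHom.comp_apply, semilinearDiv_apply, semilinearDiv_apply,
    smul_divisorOf, pushDiv_divisorOf φ hf, smul_divisorOf,
    pushDiv_divisorOf φ ((smul_ne_zero_iff_ne _).mpr hf)]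
  congr 1
  let := algebraAlong φ
  let e₁ : F ≃+* F := SemilinearAut.toRingAut g
  let e₂ : F' ≃+* F' := SemilinearAut.toRingAut g'
  have he : RingHom.comp (algebraMap F F') (e₁ : F →+* F) =
      RingHom.comp (e₂ : F' →+* F') (algebraMap F F') :=
    RingHom.ext fun x => (h x).symm
  have hn := Algebra.norm_eq_of_equiv_equiv e₁ e₂ he f
  show e₁ (Algebra.norm F f) = Algebra.norm F (e₂ f)
  rw [hn, RingEquiv.apply_symm_apply]

theorem semilinear_pushPic0 (g : SemilinearAut K F) (g' : SemilinearAut K F')
    (h : ∀ x : F, g' • φ x = φ (g • x)) (x : Pic0 K F') :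
    g • pushPic0 φ x = pushPic0 φ (g' • x) := by
  obtain ⟨D, rfl⟩ := Pic0.mk_surjective x
  rw [pushPic0_mk, SemilinearAut.pic0_smul_mk, SemilinearAut.pic0_smul_mk, pushPic0_mk]
  exact congrArg Pic0.mk (Subtype.ext (semilinear_pushDiv φ g g' h D))

end Generic

section Degeneracy

local notation "ℚbar" => AlgebraicClosure ℚ
local notation "𝐅" N:max => laurentBaseChange ℚbar (modularFunctionFieldFull N)

variable (N q : ℕ) [NeZero N] [NeZero q]

/-- Push forward along the first degeneracy map. -/
def pushAlpha : JZero (N * q) →+ JZero N :=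
  haveI := isFunctionField1_laurent ℚbar N
  haveI := isFunctionField1_laurent ℚbar (N * q)
  pushPic0 (heckeAlphaBar ℚbar N q)

/-- Push forward along the second degeneracy map. -/
def pushBeta : JZero (N * q) →+ JZero N :=
  haveI := isFunctionField1_laurent ℚbar N
  haveI := isFunctionField1_laurent ℚbar (N * q)
  pushPic0 (heckeBetaBar ℚbar N q)

theorem galois_smul_pushAlpha (σ : ℚbar ≃ₐ[ℚ] ℚbar) (x : JZero (N * q)) :
    σ • pushAlpha N q x = pushAlpha N q (σ • x) := by
  have := isFunctionField1_laurent ℚbar N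
  have := isFunctionField1_laurent ℚbar (N * q)
  refine semilinear_pushPic0 _ (galN N σ) (galN (N * q) σ) (fun y => Subtype.ext ?_) x
  rw [coe_galN_smul, coe_heckeAlphaBar, coe_heckeAlphaBar, coe_galN_smul]

theorem galois_smul_pushBeta (σ : ℚbar ≃ₐ[ℚ] ℚbar) (x : JZero (N * q)) :
    σ • pushBeta N q x = pushBeta N q (σ • x) := by
  have := isFunctionField1_laurent ℚbar N
  have := isFunctionField1_laurent ℚbar (N * q)
  refine semilinear_pushPic0 _ (galN N σ) (galN (N * q) σ) (fun y => Subtype.ext ?_) x
  rw [coe_galN_smul, coe_heckeBetaBar, coe_heckeBetaBar, coe_galN_smul,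
    ModularCurve.coeffMap_qExpand]

end Degeneracy

end FermatAgent.BadRed.Carayol
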