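import Fermat.Agent.BadRed.Carayol.Assembly.Unipotent
import Fermat.Agent.GalRep.Construct.Adic
import Fermat.Agent.GalRep.Construct.Datum
import Fermat.Prelude.Def_GaloisRep_LocalConditions

/-!
On the eigen part of the Tate module the element `ρ σ + ω σ ρ σ⁻¹` is the trace of any attached
representation; if that representation is unipotent on an inertia subgroup prime to `p`, the
eigen part has a vector fixed by this subgroup.
-/

set_option autoImplicit false

noncomputable section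

namespace FermatAgent.BadRed.Carayol

open CuspForm Matrix Polynomial FermatAgent.GalRep

local notation "ℚbar" => AlgebraicClosure ℚ
local notation "GQ" => AlgebraicClosure ℚ ≃ₐ[ℚ] AlgebraicClosure ℚ

variable {p : ℕ} [Fact p.Prime] {M : ℕ} [NeZero M] {S : Finset ℕ}
  (D : HeckeTateData M p (↑S : Set ℕ))
  {R : Type} [CommRing R] [IsDomain R] [IsDiscreteValuationRing R]
  [IsAdicComplete (IsLocalRing.maximalIdeal R) R] [CharZero R]
  (hp : (p : R) ∈ IsLocalRing.maximalIdeal R) (χ : heckeAlgebra M 2 (↑S : Set ℕ) →+* R)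
  (ρ : GaloisRepAdic R)

/-- The charpolys of Frobenius elements predicted by `χ`. -/
def FrobCompat : Prop :=
  ∀ (ℓ : ℕ) (hℓ : ℓ.Prime) (hℓM : ¬ ℓ ∣ M) (hℓS : ℓ ∉ (↑S : Set ℕ)), ℓ ≠ p →
    ∀ A : ValuationSubring ℚbar, A.LiesOverPrime ℓ → ∀ τ : GQ, A.IsFrobeniusAt τ ℓ →
      LinearMap.charpoly (ρ.ρ τ) =
        X ^ 2 - C (χ (heckeAlgebra.T hℓ hℓM hℓS)) * X + C ((ℓ : R))

include hp in
omit [CharZero R] in
/-- `ρ σ + ω σ ρ σ⁻¹` acts on an eigenvector by the trace. -/
theorem xMat_mulVec_of_eigen (hd : FrobDense) (hρ : FrobCompat χ ρ (p := p))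
    (w : Fin D.rank → R)
    (hw : ∀ t, (padicToRing hp).mapMatrix (hecMat D t) *ᵥ w = χ t • w) (σ : GQ) :
    (padicToRing hp).mapMatrix (xMat D σ) *ᵥ w = ρ.trace σ • w := by
  classical
  refine funext fun i => sub_eq_zero.mp ?_
  refine IsHausdorff.haus (I := IsLocalRing.maximalIdeal R) inferInstance _ fun n => ?_
  rw [SModEq.zero, smul_eq_mul, Ideal.mul_top]
  obtain ⟨L, hL, hLc⟩ := ρ.isAdicContinuous n
  obtain ⟨U, hU, hUc⟩ := exists_level_xMat D n
  obtain ⟨ℓ, hℓ, hℓS, A, hA, τ, hτ, m, hm⟩ :=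
    hd (L ⊔ U) (IntermediateField.finiteDimensional_sup L U) (S ∪ insert p M.primeFactors) σ
  simp only [Finset.mem_union, Finset.mem_insert, not_or] at hℓS
  have hℓM : ¬ ℓ ∣ M := fun h => hℓS.2.2 (Nat.mem_primeFactors.mpr ⟨hℓ, h, NeZero.ne M⟩)
  have hℓS' : ℓ ∉ (↑S : Set ℕ) := fun h => hℓS.1 h
  set t := powTrace (heckeAlgebra.T (k := 2) hℓ hℓM hℓS') (ℓ : heckeAlgebra M 2 (↑S : Set ℕ)) m
  have hx : ∀ i j, (p : ℤ_[p]) ^ n ∣ (xMat D σ - hecMat D t) i j := fun i j => by
    rw [← xMat_frobenius_pow D hℓ hℓM hℓS' hℓS.2.1 hA hτ m]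
    exact hUc σ (τ ^ m) (fun a ha => hm a (le_sup_right (a := L) ha)) i j
  have htr : ρ.trace (τ ^ m) = χ t := by
    rw [GaloisRepAdic.trace, map_pow, trace_pow_of_charpoly ρ.finrank_eq _ _ _
      (hρ ℓ hℓ hℓM hℓS' hℓS.2.1 A hA τ hτ) m, map_powTrace, map_natCast]
  have hcont : ρ.trace σ - ρ.trace (τ ^ m) ∈ IsLocalRing.maximalIdeal R ^ n := by
    have hg : ∀ v, ρ.ρ ((τ ^ m)⁻¹ * σ) v - v ∈
        (IsLocalRing.maximalIdeal R ^ n) • (⊤ : Submodule R ρ.V) := hLc _ fun a ha => by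
      rw [AlgEquiv.mul_apply, hm a (le_sup_left (b := U) ha), ← AlgEquiv.mul_apply,
        inv_mul_cancel, AlgEquiv.one_apply]
    let b := Module.finBasisOfFinrankEq R ρ.V ρ.finrank_eq
    have hgen : ∀ x ∈ (IsLocalRing.maximalIdeal R ^ n) • (⊤ : Submodule R ρ.V), ∀ k,
        b.repr x k ∈ IsLocalRing.maximalIdeal R ^ n := fun x hx k =>
      Submodule.smul_induction_on hx
        (fun r hr y _ => by
          rw [map_smul, Finsupp.smul_apply, smul_eq_mul]
          exact Ideal.mul_mem_right _ _ hr)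
        (fun y z hy hz => by
          rw [map_add, Finsupp.add_apply]
          exact Ideal.add_mem _ hy hz)
    rw [GaloisRepAdic.trace, GaloisRepAdic.trace, ← map_sub, LinearMap.trace_eq_matrix_trace R b]
    refine Submodule.sum_mem _ fun k _ => ?_
    rw [Matrix.diag_apply, LinearMap.toMatrix_apply]
    refine hgen _ ?_ k
    have h1 : (ρ.ρ σ - ρ.ρ (τ ^ m)) (b k) =
        ρ.ρ (τ ^ m) (ρ.ρ ((τ ^ m)⁻¹ * σ) (b k) - b k) := by
      rw [LinearMap.sub_apply, map_sub, ← Module.End.mul_apply, ← map_mul, mul_inv_cancel_left]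
    rw [h1]
    exact Submodule.smul_top_le_comap_smul_top _ _ (hg _)
  have hkey : ((padicToRing hp).mapMatrix (xMat D σ) *ᵥ w) i - (ρ.trace σ • w) i =
      (∑ j, padicToRing hp ((xMat D σ - hecMat D t) i j) * w j) -
        (ρ.trace σ - ρ.trace (τ ^ m)) * w i := by
    have hwi := congrFun (hw t) i
    simp only [Matrix.mulVec, dotProduct, RingHom.mapMatrix_apply, Matrix.map_apply,
      Pi.smul_apply, smul_eq_mul] at hwi ⊢
    simp only [Matrix.sub_apply, map_sub, sub_mul, Finset.sum_sub_distrib]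
    rw [hwi, htr]
    ring
  show ((padicToRing hp).mapMatrix (xMat D σ) *ᵥ w) i - (ρ.trace σ • w) i ∈ _
  rw [hkey]
  refine sub_mem (Ideal.sum_mem _ fun j _ => ?_) (Ideal.mul_mem_right _ _ hcont)
  obtain ⟨y, hy⟩ := hx i j
  rw [hy, map_mul, map_pow, map_natCast]
  exact Ideal.mul_mem_right _ _ (Ideal.mul_mem_right _ _ (Ideal.pow_mem_pow hp n))

variable (K : Type) [Field K] [Algebra R K] [IsFractionRing R K]

include hp in
omit [CharZero R] in
/-- The same over the field of fractions. -/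
theorem xMat_mulVec_of_eigen_frac (hd : FrobDense) (hρ : FrobCompat χ ρ (p := p))
    (v : Fin D.rank → K)
    (hv : ∀ t, ((algebraMap R K).comp (padicToRing hp)).mapMatrix (hecMat D t) *ᵥ v =
      algebraMap R K (χ t) • v) (σ : GQ) :
    ((algebraMap R K).comp (padicToRing hp)).mapMatrix (xMat D σ) *ᵥ v =
      algebraMap R K (ρ.trace σ) • v := by
  obtain ⟨⟨b, hb⟩, hbv⟩ := IsLocalization.exist_integer_multiples_of_finite (nonZeroDivisors R) v
  choose w hw using hbv
  have hw' : algebraMap R K ∘ w = algebraMap R K b • v := funext fun i => by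
    rw [Function.comp_apply, hw i, Algebra.smul_def, Pi.smul_apply, smul_eq_mul]
  have hinj := IsFractionRing.injective R K
  have hmap : ∀ (A : Matrix (Fin D.rank) (Fin D.rank) ℤ_[p]),
      algebraMap R K ∘ ((padicToRing hp).mapMatrix A *ᵥ w) =
        ((algebraMap R K).comp (padicToRing hp)).mapMatrix A *ᵥ (algebraMap R K b • v) := by
    intro A
    rw [← hw']
    funext i
    exact RingHom.map_mulVec (algebraMap R K) _ w i
  have h := xMat_mulVec_of_eigen D hp χ ρ hd hρ w (fun t => by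
    refine hinj.comp_left ?_
    show algebraMap R K ∘ _ = algebraMap R K ∘ _
    rw [hmap, Matrix.mulVec_smul, hv t, smul_comm, ← hw']
    funext i
    simp) σ
  have h' : algebraMap R K ∘ ((padicToRing hp).mapMatrix (xMat D σ) *ᵥ w) =
      algebraMap R K ∘ (ρ.trace σ • w) := congrArg (algebraMap R K ∘ ·) h
  rw [hmap, Matrix.mulVec_smul] at h'
  have hb0 : algebraMap R K b ≠ 0 :=
    (map_ne_zero_iff _ hinj).mpr (nonZeroDivisors.ne_zero hb)
  refine smul_right_injective _ hb0 ?_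
  show algebraMap R K b • _ = algebraMap R K b • _
  rw [h', smul_comm, ← hw']
  funext i
  simp

include hp in
/-- The fixed vector. -/
theorem exists_fixed_eigvec (hd : FrobDense) (hρ : FrobCompat χ ρ (p := p))
    {q : ℕ} (hq : q.Prime) (hqp : q ≠ p) {P : ValuationSubring ℚbar} (hP : P.LiesOverPrime q)
    (hunip : ∀ σ ∈ P.inertiaSubgroupIn ℚ, LinearMap.charpoly (ρ.ρ σ) = (X - 1) ^ 2) :
    ∃ v : Fin D.rank → K, v ≠ 0 ∧
      (∀ t, ((algebraMap R K).comp (padicToRing hp)).mapMatrix (hecMat D t) *ᵥ v =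
        algebraMap R K (χ t) • v) ∧
      ∀ σ ∈ P.inertiaSubgroupIn ℚ,
        ((algebraMap R K).comp (padicToRing hp)).mapMatrix (D.ρ σ) *ᵥ v = v := by
  classical
  have : CharZero K := charZero_of_injective_algebraMap (IsFractionRing.injective R K)
  let ψ : ℤ_[p] →+* K := (algebraMap R K).comp (padicToRing hp)
  let Mt : heckeAlgebra M 2 (↑S : Set ℕ) →+* Matrix (Fin D.rank) (Fin D.rank) K :=
    ψ.mapMatrix.comp (hecMat D)
  obtain ⟨v₀, hv0, hv⟩ :=
    exists_common_eigenvector D.ι D.ι_injective ((algebraMap R K).comp χ)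
  have hMt : ∀ t, Mt t = (D.ι t).map (Int.cast : ℤ → K) := fun t => by
    ext i j; simp [Mt, hecMat_apply]
  let W : Submodule K (Fin D.rank → K) :=
    { carrier := {w | ∀ t, Mt t *ᵥ w = algebraMap R K (χ t) • w}
      zero_mem' := fun t => by simp
      add_mem' := fun {a b} ha hb t => by rw [Matrix.mulVec_add, ha t, hb t, smul_add]
      smul_mem' := fun c a ha t => by rw [Matrix.mulVec_smul, ha t, smul_comm] }
  have hW : W ≠ ⊥ := fun h => hv0 ((Submodule.eq_bot_iff W).mp h v₀ fun t => by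
    rw [hMt]; exact hv t)
  have : Nontrivial W := Submodule.nontrivial_iff_ne_bot.mpr hW
  have hinv : ∀ σ, ∀ w ∈ W, ψ.mapMatrix (D.ρ σ) *ᵥ w ∈ W := fun σ w hw t => by
    rw [Matrix.mulVec_mulVec, show Mt t * ψ.mapMatrix (D.ρ σ) = ψ.mapMatrix (D.ρ σ) * Mt t by
      simp only [Mt, RingHom.comp_apply, ← map_mul]
      exact congrArg _ (D.comm σ t).symm.eq, ← Matrix.mulVec_mulVec, hw t, Matrix.mulVec_smul]
  let r : GQ →* Module.End K W :=
    { toFun := fun σ => (ψ.mapMatrix (D.ρ σ)).mulVecLin.restrict (fun w hw => hinv σ w hw)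
      map_one' := by
        refine LinearMap.ext fun w => Subtype.ext ?_
        show ψ.mapMatrix (D.ρ 1) *ᵥ (w : Fin D.rank → K) = w
        rw [map_one, map_one, Matrix.one_mulVec]
      map_mul' := fun σ τ => by
        refine LinearMap.ext fun w => Subtype.ext ?_
        show ψ.mapMatrix (D.ρ (σ * τ)) *ᵥ (w : Fin D.rank → K) =
          ψ.mapMatrix (D.ρ σ) *ᵥ (ψ.mapMatrix (D.ρ τ) *ᵥ (w : Fin D.rank → K))
        rw [map_mul, map_mul, Matrix.mulVec_mulVec] }
  have hsum : ∀ σ ∈ P.inertiaSubgroupIn ℚ, r σ + r σ⁻¹ = 2 := by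
    intro σ hσ
    have htr : ρ.trace σ = 2 := by
      have h : LinearMap.charpoly (ρ.ρ σ) = X ^ 2 - C 2 * X + C 1 := by
        rw [hunip σ hσ, map_ofNat, map_one]; ring
      have := trace_pow_of_charpoly ρ.finrank_eq _ _ _ h 1
      rwa [pow_one, powTrace] at this
    refine LinearMap.ext fun w => Subtype.ext ?_
    have h := xMat_mulVec_of_eigen_frac D hp χ ρ K hd hρ (w : Fin D.rank → K) w.2 σ
    have hx : ψ.mapMatrix (xMat D σ) = ψ.mapMatrix (D.ρ σ) + ψ.mapMatrix (D.ρ σ⁻¹) := by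
      rw [xMat, cycChar_inertia p hq hqp hP hσ, one_smul, map_add]
    rw [htr, map_ofNat, show ((algebraMap R K).comp (padicToRing hp)) = ψ from rfl, hx,
      Matrix.add_mulVec] at h
    rw [Module.End.ofNat_apply]
    show ψ.mapMatrix (D.ρ σ) *ᵥ (w : Fin D.rank → K) + ψ.mapMatrix (D.ρ σ⁻¹) *ᵥ
        (w : Fin D.rank → K) = ((2 : ℕ) • w : W)
    rw [h, Submodule.coe_smul_of_tower, ← Nat.cast_smul_eq_nsmul K 2, Nat.cast_ofNat]
  obtain ⟨w, hw0, hw⟩ := exists_common_fixed (r.comp (P.inertiaSubgroupIn ℚ).subtype) fun g => by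
    show (r (g : GQ) - 1) * (r (g : GQ) - 1) = 0
    refine LinearMap.ext fun x => ?_
    have h1 : r (g : GQ) (r (g : GQ)⁻¹ x) = x := by
      rw [← Module.End.mul_apply, ← map_mul, mul_inv_cancel, map_one, Module.End.one_apply]
    have h2 : r (g : GQ) x + r (g : GQ)⁻¹ x = x + x := by
      rw [← LinearMap.add_apply, hsum g g.2, Module.End.ofNat_apply, two_nsmul]
    have h3 : r (g : GQ) (r (g : GQ) x) + x = r (g : GQ) x + r (g : GQ) x := by
      have := congrArg (r (g : GQ)) h2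
      rwa [map_add, map_add, h1] at this
    simp only [Module.End.mul_apply, LinearMap.sub_apply, Module.End.one_apply, map_sub,
      LinearMap.zero_apply]
    rw [show r (g : GQ) (r (g : GQ) x) = r (g : GQ) x + r (g : GQ) x - x from eq_sub_of_add_eq h3]
    abel
  refine ⟨(w : Fin D.rank → K), fun h => hw0 (Subtype.ext h), w.2, fun σ hσ => ?_⟩
  exact congrArg Subtype.val (hw ⟨σ, hσ⟩)

end FermatAgent.BadRed.Carayol
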