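import Fermat.Agent.BadRed.Carayol.Assembly.NormChange
import Fermat.Agent.BadRed.Carayol.Instance.BaseRing
import Fermat.Agent.BadRed.Carayol.Main

/-!
Torsion points of `J₀(Nq²)` fixed by inertia at `q` and killed by both push forwards to level
`Nq` are killed by a bounded integer.
-/

set_option autoImplicit false
set_option maxHeartbeats 1600000

noncomputable section

namespace FermatAgent.BadRed.Carayol

open AlgebraicCurve ModularCurve IntermediateField
open FermatAgent.Curve (divisorOf IsFunctionField1)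
open FermatAgent.ModCurveTorsion
open FermatAgent.MazurPrinciple (inertiaField)
open FermatAgent.BadRed.Carayol.Instance (LevelField degreeAlong inertiaRing maximalIdeal_inertiaRing
  isAlgClosed_residue_inertiaRing)

local notation "ℚbar" => AlgebraicClosure ℚ
local notation "GQ" => AlgebraicClosure ℚ ≃ₐ[ℚ] AlgebraicClosure ℚ
local notation "𝐅" N:max => laurentBaseChange ℚbar (modularFunctionFieldFull N)

attribute [local instance] isFunctionField1_laurent

variable {A : ValuationSubring ℚbar}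

/-- An algebraic function is a constant. -/
theorem mem_range_algebraMap_of_isAlgebraic {L : ℕ} [NeZero L]
    (x : LevelField (inertiaField A) L) (hx : IsAlgebraic (inertiaField A) x) :
    x ∈ Set.range (algebraMap (inertiaField A) (LevelField (inertiaField A) L)) := by
  obtain ⟨P, hP0, hP⟩ := hx
  set ι := (inertiaField A).val
  have halg : IsIntegral ℚbar (fromInertia A L x) := by
    refine (?_ : IsAlgebraic ℚbar (fromInertia A L x)).isIntegral
    refine ⟨P.map (ι : inertiaField A →+* ℚbar),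
      (Polynomial.map_ne_zero_iff ι.toRingHom.injective).mpr hP0, ?_⟩
    rw [Polynomial.aeval_def, Polynomial.eval₂_map,
      ← map_zero (fromInertia A L), ← hP, Polynomial.aeval_def, Polynomial.hom_eval₂]
    congr 1
    exact RingHom.ext fun c => (fromInertia_algebraMap A L c).symm
  obtain ⟨c, hc⟩ : fromInertia A L x ∈ Set.range (algebraMap ℚbar (𝐅 L)) := by
    have hsplit := IsAlgClosed.degree_eq_one_of_irreducible ℚbar (minpoly.irreducible halg)
    exact minpoly.mem_range_of_degree_eq_one ℚbar _ hsplit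
  have h0 := congrArg (fun y : 𝐅 L => (y : LaurentSeries ℚbar).coeff 0) hc
  simp only [IntermediateField.coe_algebraMap_apply, algebraMap_laurentSeries_eq_single,
    HahnSeries.coeff_single_same, coe_fromInertia, coeffMap_coeff] at h0
  refine ⟨(x : LaurentSeries (inertiaField A)).coeff 0, fromInertia_injective A L ?_⟩
  rw [fromInertia_algebraMap, ← hc]
  exact congrArg _ h0.symm

/-- A norm with principal push forward is a constant times a power, over the inertia field. -/
theorem exists_norm_eq_const_mul_pow {L L' : ℕ} [NeZero L] [NeZero L'] {d : ℕ} (hd : d.Prime)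
    (φ₀ : LevelField (inertiaField A) L →ₐ[inertiaField A] LevelField (inertiaField A) L')
    (φ : (𝐅 L) →ₐ[ℚbar] (𝐅 L')) (hφ₀ : degreeAlong φ₀ = d) (hφ : degreeAlong φ = d)
    (hcomm : ∀ x, fromInertia A L' (φ₀ x) = φ (fromInertia A L x))
    (hgal : ∀ (σ : GQ) (y : 𝐅 L), galN L' σ • φ y = φ (galN L σ • y)) {n : ℕ}
    {D : Divisor.degZero (K := ℚbar) (F := 𝐅 L')}
    (hD : ∀ σ ∈ A.inertiaSubgroupIn ℚ, galN L' σ • (D : Divisor ℚbar (𝐅 L')) = D)
    {f : LevelField (inertiaField A) L'} (hf : f ≠ 0)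
    (hfD : n • (D : Divisor ℚbar (𝐅 L')) = divisorOf (fromInertia A L' f))
    (hzero : pushPic0 φ (Pic0.mk D) = 0) :
    ∃ (c : inertiaField A) (g : LevelField (inertiaField A) L),
      normAlongRing φ₀.toRingHom f =
        algebraMap (inertiaField A) (LevelField (inertiaField A) L) c * g ^ n := by
  have hf' : fromInertia A L' f ≠ 0 := fun e => hf (fromInertia_injective A L' (e.trans (map_zero _).symm))
  obtain ⟨g₁, hg₁, hpush, hnorm⟩ := norm_divisorOf_of_pushPic0 φ hf' hfD hzero
  obtain ⟨g₂, hg₂, hg₂D, hg₂fix⟩ := exists_fixed_fun A L (D := pushDiv φ D) (fun σ hσ => by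
    rw [semilinear_pushDiv φ (galN L σ) (galN L' σ) (hgal σ) D, hD σ hσ]) hg₁ hpush
  obtain ⟨g, rfl⟩ := mem_range_fromInertia A L hg₂fix
  set w := normAlongRing φ₀.toRingHom f / g ^ n with hw
  have hN : fromInertia A L (normAlongRing φ₀.toRingHom f) = normAlongHom φ (fromInertia A L' f) :=
    baseChangeHom_norm (inertiaField A).val hd φ₀ φ hφ₀ hφ hcomm f
  have hN0 : normAlongHom φ (fromInertia A L' f) ≠ 0 := normAlongHom_ne_zero φ hf'
  obtain ⟨c, hc⟩ : ∃ c : ℚbar, algebraMap ℚbar (𝐅 L) c = fromInertia A L w := by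
    refine FermatAgent.Curve.forall_ord_eq_zero_iff.mp fun v => ?_
    have h1 := DFunLike.congr_fun hnorm v
    rw [← hpush, hg₂D, Finsupp.smul_apply, FermatAgent.Curve.divisorOf_apply,
      FermatAgent.Curve.divisorOf_apply, nsmul_eq_mul] at h1
    rw [hw, map_div₀, map_pow, hN, div_eq_mul_inv, v.ord_mul hN0 (inv_ne_zero (pow_ne_zero _ hg₂)),
      v.ord_inv, ← zpow_natCast, v.ord_zpow, h1, add_neg_cancel]
  have hwfix : ∀ σ ∈ A.inertiaSubgroupIn ℚ, σ c = c := fun σ hσ => by
    have h0 := congrArg (fun y : 𝐅 L => (y : LaurentSeries ℚbar).coeff 0) hc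
    simp only [IntermediateField.coe_algebraMap_apply, algebraMap_laurentSeries_eq_single,
      HahnSeries.coeff_single_same, coe_fromInertia, coeffMap_coeff] at h0
    rw [h0]
    exact FermatAgent.MazurPrinciple.mem_inertiaField.mp (Subtype.prop _) σ hσ
  refine ⟨⟨c, FermatAgent.MazurPrinciple.mem_inertiaField.mpr hwfix⟩, g, ?_⟩
  have hg0 : g ≠ 0 := fun e => hg₂ (by rw [e, map_zero])
  rw [← div_eq_iff (pow_ne_zero _ hg0)]
  refine fromInertia_injective A L ?_
  rw [fromInertia_algebraMap]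
  exact hc.symm

variable {q : ℕ} [hq : Fact q.Prime] [NeZero q]

/-- The auxiliary factor of the level. -/
def coordLevel (q : ℕ) : ℕ := if q = 2 then 9 else 4

omit [NeZero q] in
theorem not_dvd_coordLevel : ¬ q ∣ coordLevel q := by
  rw [coordLevel]
  split_ifs with h
  · subst h; decide
  · intro h4
    exact h ((Nat.prime_dvd_prime_iff_eq hq.out Nat.prime_two).mp
      (hq.out.dvd_of_dvd_pow (n := 2) (by norm_num; exact h4)))

/-- The chart data exist at every level divisible by the auxiliary factor. -/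
def ChartInput (q : ℕ) [Fact q.Prime] [NeZero q] (A : ValuationSubring ℚbar)
    [IsDiscreteValuationRing (inertiaRing A)] : Prop :=
  ∀ (L : ℕ) [NeZero L] (hqL : ¬ q ∣ L), coordLevel q ∣ L →
    ∃ u : LevelField (inertiaField A) L,
      Nonempty (ChartData (inertiaRing A) (Instance.tower (inertiaField A) L hqL) u) ∧
      Nonempty (ChartData (inertiaRing A) (Instance.tower (inertiaField A) L hqL) u⁻¹)

/-- **Bounded kernel.** -/
theorem exists_bound_smul_eq_zero (N : ℕ) [NeZero N] (hqN : ¬ q ∣ N)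
    [IsDiscreteValuationRing (inertiaRing A)] (hA : A.LiesOverPrime q) (hchart : ChartInput q A) :
    ∃ E : ℕ, E ≠ 0 ∧ ∀ n : ℕ, 0 < n → ¬ q ∣ n → ∀ x : JZero (N * q * q), n • x = 0 →
      (∀ σ ∈ A.inertiaSubgroupIn ℚ, σ • x = x) → pushAlpha (N * q) q x = 0 →
      pushBeta (N * q) q x = 0 → E • x = 0 := by
  classical
  set K₀ := inertiaField A
  set L := N * coordLevel q with hLdef
  have hNL : N ∣ L := dvd_mul_right _ _
  have hqL : ¬ q ∣ L := fun h => (hq.out.dvd_mul.mp h).elim hqN not_dvd_coordLevel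
  have : NeZero (coordLevel q) := ⟨fun h => not_dvd_coordLevel (q := q) (h ▸ dvd_zero q)⟩
  have : NeZero L := ⟨mul_ne_zero (NeZero.ne N) (NeZero.ne _)⟩
  obtain ⟨u, ⟨h₀⟩, ⟨h₁⟩⟩ := hchart L hqL (dvd_mul_left _ _)
  have : IsAlgClosed (IsLocalRing.ResidueField (inertiaRing A)) :=
    isAlgClosed_residue_inertiaRing hq.out hA
  obtain ⟨E, hE, hkey⟩ := exists_bound_pow_eq_const_mul_pow
    (maximalIdeal_inertiaRing hq.out hA) (fun x hx => mem_range_algebraMap_of_isAlgebraic x hx)
    (Instance.tower K₀ L hqL) h₀ h₁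
  have h1 : N * q ∣ L * q := Nat.mul_dvd_mul_right hNL q
  have h2 : N * q * q ∣ L * q * q := Nat.mul_dvd_mul_right h1 q
  set ψ := levelIncl ℚbar h2
  set d := degreeAlong ψ
  have hd : d ≠ 0 := by
    let := algebraAlong ψ
    have := isScalarTower_along ψ
    have : FiniteDimensional (𝐅 (N * q * q)) (𝐅 (L * q * q)) := FermatAgent.Curve.finiteAlong ψ
    exact (Module.finrank_pos (R := 𝐅 (N * q * q)) (M := 𝐅 (L * q * q))).ne'
  refine ⟨E * d, Nat.mul_ne_zero hE.ne' hd, fun n hn hqn x hnx hfix hα hβ => ?_⟩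
  obtain ⟨D, f, hDx, hDfix, hf, hfD, hdiv⟩ := exists_function_of_fixed_torsion A (N * q * q) x hnx hfix
  rw [← hDx] at hα hβ
  obtain ⟨cα, gα, hgα⟩ := exists_norm_eq_const_mul_pow (A := A) hq.out
    (heckeAlphaBar K₀ (N * q) q) (heckeAlphaBar ℚbar (N * q) q) (Instance.degreeAlong_α K₀ N)
    (Instance.degreeAlong_α ℚbar N) (fun y => baseChangeHom_alpha _ y) (fun σ y => Subtype.ext (by
      rw [coe_galN_smul, coe_heckeAlphaBar, coe_heckeAlphaBar, coe_galN_smul]))
    hDfix hf hfD hα
  obtain ⟨cβ, gβ, hgβ⟩ := exists_norm_eq_const_mul_pow (A := A) hq.out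
    (heckeBetaBar K₀ (N * q) q) (heckeBetaBar ℚbar (N * q) q) (Instance.degreeAlong_β K₀ N hqN)
    (Instance.degreeAlong_β ℚbar N hqN) (fun y => baseChangeHom_beta _ y) (fun σ y => Subtype.ext (by
      rw [coe_galN_smul, coe_heckeBetaBar, coe_heckeBetaBar, coe_galN_smul,
        ModularCurve.coeffMap_qExpand]))
    hDfix hf hfD hβ
  set F := levelIncl K₀ h2 f with hFdef
  have hF : F ≠ 0 := (map_ne_zero _).mpr hf
  have hFdiv : DivisibleOn K₀ F n := fun V hV => by
    obtain ⟨g, hg⟩ := hdiv (V.comap (levelIncl K₀ h2).toRingHom) fun c => by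
      rw [ValuationSubring.mem_comap]
      exact (levelIncl K₀ h2).commutes c ▸ hV c
    exact ⟨levelIncl K₀ h2 g, map_valuation_eq _ V hf hg⟩
  have hNα : (Instance.tower K₀ L hqL).normα F = algebraMap K₀ _ cα * levelIncl K₀ h1 gα ^ n := by
    have hwit : levelIncl K₀ h2 (jdElt K₀ (q * q) (L := N * q * q) (by rw [mul_assoc]; exact dvd_mul_left _ _))
        ∉ Set.range (heckeAlphaBar K₀ (L * q) q) := by
      have heq : levelIncl K₀ h2 (jdElt K₀ (q * q) (L := N * q * q) (by rw [mul_assoc]; exact dvd_mul_left _ _)) =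
          jdElt K₀ (q * q) (L := L * q * q) (by rw [mul_assoc]; exact dvd_mul_left _ _) :=
        Subtype.ext (coe_levelIncl _ h2 _)
      rw [heq]
      exact jdElt_notMem_range_alpha K₀ _ fun hd' =>
        hqL (Nat.dvd_of_mul_dvd_mul_right hq.out.pos hd')
    have h := map_normAlongRing (φ := (heckeAlphaBar K₀ (N * q) q).toRingHom)
      (φ' := (heckeAlphaBar K₀ (L * q) q).toRingHom) (f₁ := (levelIncl K₀ h1).toRingHom)
      (f₂ := (levelIncl K₀ h2).toRingHom) (fun a => levelIncl_alpha K₀ h1 a) hq.out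
      (Instance.degreeAlong_α K₀ N) (Instance.degreeAlong_α K₀ L) hwit f
    refine h.symm.trans ?_
    rw [hgα]
    show levelIncl K₀ h1 _ = _
    rw [map_mul, map_pow, AlgHom.commutes]
  have hNβ : (Instance.tower K₀ L hqL).normβ F = algebraMap K₀ _ cβ * levelIncl K₀ h1 gβ ^ n := by
    have hwit : levelIncl K₀ h2 (FermatAgent.ModFun.jBar K₀ (N * q * q))
        ∉ Set.range (heckeBetaBar K₀ (L * q) q) := by
      have heq : levelIncl K₀ h2 (FermatAgent.ModFun.jBar K₀ (N * q * q)) =
          FermatAgent.ModFun.jBar K₀ (L * q * q) := Subtype.ext (by simp [coe_levelIncl])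
      rw [heq]
      exact jBar_notMem_range_beta K₀ hq.out.one_lt
    have h := map_normAlongRing (φ := (heckeBetaBar K₀ (N * q) q).toRingHom)
      (φ' := (heckeBetaBar K₀ (L * q) q).toRingHom) (f₁ := (levelIncl K₀ h1).toRingHom)
      (f₂ := (levelIncl K₀ h2).toRingHom) (fun a => levelIncl_beta K₀ h1 a) hq.out
      (Instance.degreeAlong_β K₀ N hqN) (Instance.degreeAlong_β K₀ L hqL) hwit f
    refine h.symm.trans ?_
    rw [hgβ]
    show levelIncl K₀ h1 _ = _
    rw [map_mul, map_pow, AlgHom.commutes]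
  obtain ⟨c, y, hc, hy⟩ := hkey n hn hqn F hF hFdiv ⟨cα, _, hNα⟩ ⟨cβ, _, hNβ⟩
  -- go to `ℚbar` and take the norm down
  set Y := fromInertia A (L * q * q) y
  set fb := fromInertia A (N * q * q) f
  have hfb : fb ≠ 0 := fun e => hf (fromInertia_injective A _ (e.trans (map_zero _).symm))
  have hY : Y ^ n = algebraMap ℚbar (𝐅 (L * q * q)) (c : ℚbar) * ψ fb ^ E := by
    rw [← map_pow, hy, map_mul, map_pow, fromInertia_algebraMap]
    rw [show fromInertia A (L * q * q) F = ψ fb from baseChangeHom_levelIncl _ h2 f]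
  have hY0 : Y ≠ 0 := fun e => by
    rw [e, zero_pow hn.ne'] at hY
    exact mul_ne_zero ((map_ne_zero _).mpr fun e' => hc (Subtype.ext e'))
      (pow_ne_zero E ((map_ne_zero ψ).mpr hfb)) hY.symm
  set Z := normAlongHom ψ Y
  have hZ0 : Z ≠ 0 := normAlongHom_ne_zero ψ hY0
  have hZ : Z ^ n = algebraMap ℚbar (𝐅 (N * q * q)) ((c : ℚbar) ^ d) * fb ^ (d * E) := by
    let := algebraAlong ψ
    have := isScalarTower_along ψ
    rw [← map_pow, hY, map_mul, map_pow]
    congr 1
    · show Algebra.norm _ (algebraMap ℚbar (𝐅 (L * q * q)) (c : ℚbar)) = _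
      rw [IsScalarTower.algebraMap_apply ℚbar (𝐅 (N * q * q)) (𝐅 (L * q * q)),
        Algebra.norm_algebraMap, map_pow]
      rfl
    · show (Algebra.norm _ (algebraMap (𝐅 (N * q * q)) (𝐅 (L * q * q)) fb)) ^ E = _
      rw [Algebra.norm_algebraMap, ← pow_mul]
      rfl
  have hdivZ : ∀ v : Place ℚbar (𝐅 (N * q * q)),
      ((E * d : ℕ) • (D : Divisor ℚbar (𝐅 (N * q * q)))) v = v.ord Z := fun v => by
    have h := congrArg v.ord hZ
    have hc' : (c : ℚbar) ^ d ≠ 0 := pow_ne_zero _ fun e' => hc (Subtype.ext e')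
    rw [← zpow_natCast, v.ord_zpow, v.ord_mul ((map_ne_zero _).mpr hc') (pow_ne_zero _ hfb),
      FermatAgent.Curve.RR.ord_algebraMap v hc', zero_add, ← zpow_natCast, v.ord_zpow,
      ← FermatAgent.Curve.divisorOf_apply fb v, ← hfD, Finsupp.smul_apply, nsmul_eq_mul] at h
    rw [Finsupp.smul_apply, nsmul_eq_mul]
    refine mul_left_cancel₀ (Int.natCast_ne_zero.mpr hn.ne') ?_
    rw [h]
    push_cast
    ring
  rw [← hDx, show (E * d) • Pic0.mk D = Pic0.mk ((E * d) • D) from
    (map_nsmul (QuotientAddGroup.mk' _) (E * d) D).symm]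
  refine (QuotientAddGroup.eq_zero_iff _).mpr ?_
  exact AddSubgroup.mem_addSubgroupOf.mpr ⟨Z, hZ0, hdivZ⟩

end FermatAgent.BadRed.Carayol
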