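import Fermat.Agent.GalRep.Construct.TateData
import Fermat.Agent.GalRep.Construct.Pseudo
import Mathlib.NumberTheory.Padics.PadicNumbers
import Mathlib.LinearAlgebra.Dual.Lemmas

/-!
The `p`-adic matrix of an equivariant map between Jacobians; integral vectors from vectors
over an extension of `ℚ_p`.
-/

set_option autoImplicit false

noncomputable section

namespace FermatAgent.BadRed.Carayol

open CuspForm ModularCurve AlgebraicCurve Matrix FermatAgent.GalRep

local notation "ℚbar" => AlgebraicClosure ℚ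
local notation "GQ" => AlgebraicClosure ℚ ≃ₐ[ℚ] AlgebraicClosure ℚ

/-- A vector killed by a set of integral linear forms gives an integral one. -/
theorem exists_padicInt_vector {p : ℕ} [Fact p.Prime] {r : ℕ} {K : Type*} [Field K] [CharZero K]
    (ψ : ℤ_[p] →+* K) (v : Fin r → K) (hv : v ≠ 0) :
    ∃ w : Fin r → ℤ_[p], w ≠ 0 ∧
      ∀ a : Fin r → ℤ_[p], ∑ i, ψ (a i) * v i = 0 → ∑ i, a i * w i = 0 := by
  classical
  have hψ : Function.Injective ψ := by
    refine (injective_iff_map_eq_zero ψ).mpr fun x hx => by_contra fun hx0 => ?_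
    obtain ⟨u, hu⟩ : ∃ u : ℤ_[p]ˣ, x = (u : ℤ_[p]) * (p : ℤ_[p]) ^ x.valuation :=
      ⟨PadicInt.unitCoeff hx0, PadicInt.unitCoeff_spec hx0⟩
    rw [hu, map_mul, mul_eq_zero] at hx
    rcases hx with h | h
    · exact (u.isUnit.map ψ).ne_zero h
    · rw [map_pow, map_natCast] at h
      exact pow_ne_zero _ (Nat.cast_ne_zero.mpr (Fact.out : p.Prime).ne_zero) h
  let ψ' : ℚ_[p] →+* K := IsFractionRing.lift hψ
  have hψ' : ∀ a : ℤ_[p], ψ' (a : ℚ_[p]) = ψ a := fun a =>
    IsFractionRing.lift_algebraMap hψ a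
  let _ : Algebra ℚ_[p] K := ψ'.toAlgebra
  obtain ⟨i₀, hi₀⟩ := Function.ne_iff.mp hv
  obtain ⟨f, hf⟩ := not_forall.mp (mt (Module.forall_dual_apply_eq_zero_iff ℚ_[p] (v i₀)).mp hi₀)
  obtain ⟨⟨b, hb⟩, hbv⟩ := IsLocalization.exist_integer_multiples_of_finite
    (nonZeroDivisors ℤ_[p]) (fun i => f (v i))
  choose w hw using hbv
  have hw' : ∀ i, ((w i : ℤ_[p]) : ℚ_[p]) = (b : ℚ_[p]) * f (v i) := fun i => by
    have := hw i
    rw [Algebra.smul_def] at this
    exact this
  refine ⟨w, fun h => hf ?_, fun a ha => PadicInt.ext ?_⟩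
  · have := hw' i₀
    rw [h, Pi.zero_apply, PadicInt.coe_zero, eq_comm, mul_eq_zero] at this
    exact this.resolve_left fun h0 =>
      nonZeroDivisors.ne_zero hb (PadicInt.coe_eq_zero.mp h0)
  · rw [PadicInt.coe_sum, PadicInt.coe_zero]
    simp only [PadicInt.coe_mul]
    calc ∑ i, (a i : ℚ_[p]) * (w i : ℚ_[p]) = (b : ℚ_[p]) * f (∑ i, (a i : ℚ_[p]) • v i) := by
          rw [map_sum, Finset.mul_sum]
          refine Finset.sum_congr rfl fun i _ => ?_
          rw [hw', map_smul, smul_eq_mul]; ring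
      _ = 0 := by
          rw [show ∑ i, (a i : ℚ_[p]) • v i = 0 from ?_, map_zero, mul_zero]
          rw [← ha]
          refine Finset.sum_congr rfl fun i _ => ?_
          rw [Algebra.smul_def, RingHom.algebraMap_toAlgebra, hψ']

variable {p : ℕ} {M N : ℕ} [NeZero M] [NeZero N] {S S' : Set ℕ}
  (D : HeckeTorsionData M p S) (D' : HeckeTorsionData N p S') (φ : JZero M →+ JZero N)

/-- `φ` on the `pⁿ`-torsion in coordinates. -/
def transLevelHom (n : ℕ) : (Fin D.rank → ZMod (p ^ n)) →+ (Fin D'.rank → ZMod (p ^ n)) :=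
  (D'.e n).toAddMonoidHom.comp
    (({ toFun := fun x => ⟨φ (x : JZero M), mem_torsion_pow.mpr (by
          rw [← map_nsmul, mem_torsion_pow.mp x.2, map_zero])⟩
        map_zero' := Subtype.ext (map_zero φ)
        map_add' := fun x y => Subtype.ext (map_add φ _ _) } :
        Pic0.torsion ℚbar (modularFunctionFieldBar M) (p ^ n) →+
          Pic0.torsion ℚbar (modularFunctionFieldBar N) (p ^ n)).comp (D.e n).symm.toAddMonoidHom)

/-- The matrix of `φ` on the `pⁿ`-torsion. -/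
def transLevelMat (n : ℕ) : Matrix (Fin D'.rank) (Fin D.rank) (ZMod (p ^ n)) :=
  LinearMap.toMatrix' ((transLevelHom D D' φ n).toZModLinearMap (p ^ n))

theorem transLevelMat_e (n : ℕ) (x : Pic0.torsion ℚbar (modularFunctionFieldBar M) (p ^ n))
    (y : Pic0.torsion ℚbar (modularFunctionFieldBar N) (p ^ n))
    (h : (y : JZero N) = φ (x : JZero M)) :
    transLevelMat D D' φ n *ᵥ D.e n x = D'.e n y := by
  rw [transLevelMat, LinearMap.toMatrix'_mulVec]
  show D'.e n _ = _
  congr 1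
  apply Subtype.ext
  simp [h]

theorem transLevelMat_succ (n : ℕ) (i : Fin D'.rank) (j : Fin D.rank) :
    ZMod.castHom (pow_dvd_pow p n.le_succ) (ZMod (p ^ n)) (transLevelMat D D' φ (n + 1) i j) =
      transLevelMat D D' φ n i j := by
  obtain ⟨x, hx⟩ := (D.e (n + 1)).surjective (Pi.single j 1)
  have hx' : p ^ (n + 1) • (x : JZero M) = 0 := mem_torsion_pow.mp x.2
  let x₀ : Pic0.torsion ℚbar (modularFunctionFieldBar M) (p ^ n) :=
    ⟨p • (x : JZero M), mem_torsion_pow.mpr (by rw [← mul_nsmul', ← pow_succ, hx'])⟩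
  let y : Pic0.torsion ℚbar (modularFunctionFieldBar N) (p ^ (n + 1)) :=
    ⟨φ (x : JZero M), mem_torsion_pow.mpr (by rw [← map_nsmul, hx', map_zero])⟩
  let y₀ : Pic0.torsion ℚbar (modularFunctionFieldBar N) (p ^ n) :=
    ⟨p • φ (x : JZero M), mem_torsion_pow.mpr (by
      rw [← mul_nsmul', ← pow_succ, ← map_nsmul, hx', map_zero])⟩
  have h0 := transLevelMat_e D D' φ n x₀ y₀ (map_nsmul φ p _).symm
  have h1 := transLevelMat_e D D' φ (n + 1) x y rfl
  have hx0 : D.e n x₀ = Pi.single j 1 := funext fun k => by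
    rw [D.e_mul n x x₀ rfl k, hx]
    rcases eq_or_ne k j with rfl | hk
    · rw [Pi.single_eq_same, Pi.single_eq_same, map_one]
    · simp [hk]
  rw [hx0] at h0
  rw [hx] at h1
  have h2 := congrFun h0 i
  have h3 := congrFun h1 i
  simp only [Matrix.mulVec_single_one, Matrix.col_apply] at h2 h3
  rw [h2, h3, D'.e_mul n y y₀ rfl i]

variable [Fact p.Prime]

/-- The `p`-adic matrix of `φ`. -/
def transMat : Matrix (Fin D'.rank) (Fin D.rank) ℤ_[p] :=
  Matrix.of fun i j => (exists_padicInt_of_compatible (fun n => transLevelMat D D' φ n i j)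
    (fun n => transLevelMat_succ D D' φ n i j)).choose

theorem transMat_toZModPow (n : ℕ) :
    (transMat D D' φ).map (PadicInt.toZModPow n) = transLevelMat D D' φ n :=
  Matrix.ext fun i j => (exists_padicInt_of_compatible (fun n => transLevelMat D D' φ n i j)
    (fun n => transLevelMat_succ D D' φ n i j)).choose_spec n

theorem rect_ext_of_toZModPow {a b : ℕ} {A B : Matrix (Fin a) (Fin b) ℤ_[p]}
    (h : ∀ n, A.map (PadicInt.toZModPow n) = B.map (PadicInt.toZModPow n)) : A = B :=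
  Matrix.ext fun i j => PadicInt.ext_of_toZModPow.mp fun n => congrFun (congrFun (h n) i) j

/-- Equivariance. -/
theorem transMat_mul_tateMat (hφ : ∀ (σ : GQ) (x : JZero M), σ • φ x = φ (σ • x)) (σ : GQ) :
    transMat D D' φ * tateMat D σ = tateMat D' σ * transMat D D' φ := by
  refine rect_ext_of_toZModPow fun n => ?_
  have e1 := tateMat_toZModPow D n σ
  have e2 := tateMat_toZModPow D' n σ
  rw [RingHom.mapMatrix_apply] at e1 e2
  rw [Matrix.map_mul, Matrix.map_mul, transMat_toZModPow, e1, e2]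
  refine Matrix.ext fun i j => ?_
  obtain ⟨x, hx⟩ := (D.e n).surjective (Pi.single j 1)
  have hx' := mem_torsion_pow.mp x.2
  let σx : Pic0.torsion ℚbar (modularFunctionFieldBar M) (p ^ n) :=
    ⟨σ • (x : JZero M), mem_torsion_pow.mpr (galois_torsion σ hx')⟩
  let φx : Pic0.torsion ℚbar (modularFunctionFieldBar N) (p ^ n) :=
    ⟨φ (x : JZero M), mem_torsion_pow.mpr (by rw [← map_nsmul, hx', map_zero])⟩
  let φσx : Pic0.torsion ℚbar (modularFunctionFieldBar N) (p ^ n) :=
    ⟨φ (σ • (x : JZero M)), mem_torsion_pow.mpr (by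
      rw [← map_nsmul, galois_torsion σ hx', map_zero])⟩
  have h1 : (transLevelMat D D' φ n * levelMat D n σ) *ᵥ D.e n x = D'.e n φσx := by
    rw [← Matrix.mulVec_mulVec, levelMat_e D n σ x σx rfl, transLevelMat_e D D' φ n σx φσx rfl]
  have h2 : (levelMat D' n σ * transLevelMat D D' φ n) *ᵥ D.e n x = D'.e n φσx := by
    rw [← Matrix.mulVec_mulVec, transLevelMat_e D D' φ n x φx rfl,
      levelMat_e D' n σ φx φσx (hφ σ _).symm]
  rw [hx] at h1 h2
  simpa using congrFun (h1.trans h2.symm) i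

/-- The point of `pⁿ`-torsion of a vector. -/
def torsionPoint (w : Fin D.rank → ℤ_[p]) (n : ℕ) : JZero M :=
  ((D.e n).symm fun i => PadicInt.toZModPow n (w i) :)

theorem pow_smul_torsionPoint (w : Fin D.rank → ℤ_[p]) (n : ℕ) :
    p ^ n • torsionPoint D w n = 0 :=
  mem_torsion_pow.mp ((D.e n).symm _).2

theorem galois_smul_torsionPoint {w : Fin D.rank → ℤ_[p]} {σ : GQ}
    (h : tateMat D σ *ᵥ w = w) (n : ℕ) : σ • torsionPoint D w n = torsionPoint D w n := by
  set x := (D.e n).symm fun i => PadicInt.toZModPow n (w i) with hx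
  let σx : Pic0.torsion ℚbar (modularFunctionFieldBar M) (p ^ n) :=
    ⟨σ • (x : JZero M), mem_torsion_pow.mpr (galois_torsion σ (mem_torsion_pow.mp x.2))⟩
  suffices σx = x from congrArg Subtype.val this
  refine (D.e n).injective ?_
  rw [← levelMat_e D n σ x σx rfl, hx, AddEquiv.apply_symm_apply, ← tateMat_toZModPow D n σ]
  funext i
  rw [RingHom.mapMatrix_apply]
  exact (RingHom.map_mulVec (PadicInt.toZModPow n) _ w i).symm.trans (by rw [h])

theorem map_torsionPoint {w : Fin D.rank → ℤ_[p]} (h : transMat D D' φ *ᵥ w = 0) (n : ℕ) :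
    φ (torsionPoint D w n) = 0 := by
  set x := (D.e n).symm fun i => PadicInt.toZModPow n (w i) with hx
  let φx : Pic0.torsion ℚbar (modularFunctionFieldBar N) (p ^ n) :=
    ⟨φ (x : JZero M), mem_torsion_pow.mpr (by
      rw [← map_nsmul, mem_torsion_pow.mp x.2, map_zero])⟩
  suffices φx = 0 from congrArg Subtype.val this
  refine (D'.e n).injective ?_
  rw [← transLevelMat_e D D' φ n x φx rfl, hx, AddEquiv.apply_symm_apply, map_zero,
    ← transMat_toZModPow]
  funext i
  exact (RingHom.map_mulVec (PadicInt.toZModPow n) _ w i).symm.trans (by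
    rw [h, Pi.zero_apply, map_zero, Pi.zero_apply])

/-- A nonzero vector gives torsion points not killed by a given positive integer. -/
theorem exists_smul_torsionPoint_ne_zero {w : Fin D.rank → ℤ_[p]} (hw : w ≠ 0) {E : ℕ}
    (hE : E ≠ 0) : ∃ n, E • torsionPoint D w n ≠ 0 := by
  obtain ⟨i, hi⟩ := Function.ne_iff.mp hw
  obtain ⟨n, hn⟩ := not_forall.mp (mt PadicInt.ext_of_toZModPow.mp
    (mul_ne_zero (Nat.cast_ne_zero.mpr hE) hi : (E : ℤ_[p]) * w i ≠ 0))
  refine ⟨n, fun h => hn ?_⟩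
  have h1 : E • (D.e n).symm (fun j => PadicInt.toZModPow n (w j)) = 0 := Subtype.ext h
  have h2 := congrFun (congrArg (D.e n) h1) i
  rw [map_nsmul, AddEquiv.apply_symm_apply, map_zero, Pi.smul_apply, Pi.zero_apply,
    nsmul_eq_mul] at h2
  rw [map_mul, map_natCast, map_zero, h2]


/-- The Eichler-Shimura relations force the compatibility with the Hecke operators. -/
theorem transMat_mul_hecke (hφ : ∀ (σ : GQ) (x : JZero M), σ • φ x = φ (σ • x))
    {ℓ : ℕ} (hℓ : ℓ.Prime) (hℓM : ¬ ℓ ∣ M) (hℓS : ℓ ∉ S) (hℓN : ¬ ℓ ∣ N) (hℓS' : ℓ ∉ S')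
    {τ : GQ}
    (h : tateMat D τ * tateMat D τ - (D.ι (heckeAlgebra.T hℓ hℓM hℓS)).map (Int.cast : ℤ → ℤ_[p])
        * tateMat D τ + (ℓ : Matrix (Fin D.rank) (Fin D.rank) ℤ_[p]) = 0)
    (h' : tateMat D' τ * tateMat D' τ -
        (D'.ι (heckeAlgebra.T hℓ hℓN hℓS')).map (Int.cast : ℤ → ℤ_[p]) * tateMat D' τ +
        (ℓ : Matrix (Fin D'.rank) (Fin D'.rank) ℤ_[p]) = 0) :
    transMat D D' φ * (D.ι (heckeAlgebra.T hℓ hℓM hℓS)).map (Int.cast : ℤ → ℤ_[p]) =
      (D'.ι (heckeAlgebra.T hℓ hℓN hℓS')).map (Int.cast : ℤ → ℤ_[p]) * transMat D D' φ := by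
  set P := transMat D D' φ
  set T := (D.ι (heckeAlgebra.T hℓ hℓM hℓS)).map (Int.cast : ℤ → ℤ_[p])
  set T' := (D'.ι (heckeAlgebra.T hℓ hℓN hℓS')).map (Int.cast : ℤ → ℤ_[p])
  have e := transMat_mul_tateMat D D' φ hφ τ
  have hT : T * tateMat D τ = tateMat D τ * tateMat D τ + (ℓ : ℤ_[p]) • 1 := by
    rw [Nat.cast_smul_eq_nsmul, nsmul_one]
    exact (sub_eq_zero.mp (by rw [← h]; abel)).symm
  have hT' : T' * tateMat D' τ = tateMat D' τ * tateMat D' τ + (ℓ : ℤ_[p]) • 1 := by
    rw [Nat.cast_smul_eq_nsmul, nsmul_one]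
    exact (sub_eq_zero.mp (by rw [← h']; abel)).symm
  have key : P * T * tateMat D τ = T' * P * tateMat D τ := by
    rw [Matrix.mul_assoc, hT, Matrix.mul_assoc, e, ← Matrix.mul_assoc, hT', Matrix.mul_add,
      ← Matrix.mul_assoc, e, Matrix.mul_assoc, e, Matrix.add_mul, Matrix.mul_smul, Matrix.mul_one,
      Matrix.smul_mul, Matrix.one_mul, Matrix.mul_assoc]
  have hinv : tateMat D τ * tateMat D τ⁻¹ = 1 := by
    show tateHom D τ * tateHom D τ⁻¹ = 1
    rw [← map_mul, mul_inv_cancel, map_one]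
  have := congrArg (· * tateMat D τ⁻¹) key
  simpa [Matrix.mul_assoc, hinv] using this

end FermatAgent.BadRed.Carayol
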