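import Fermat.Agent.BadRed.Carayol.Assembly.Push
import Fermat.Agent.MazurPrinciple.InertiaField
import Fermat.Agent.ModCurve.Fun.BaseChange
import Fermat.Agent.Curve.RR.Main
import Fermat.Agent.Curve.RR.Setup
import Fermat.Agent.Mazur.Step3.Cusps
import Fermat.Agent.BadRed.Carayol.Norms

/-!
A torsion class of `J₀(M)` fixed by inertia is represented by a function over the inertia field
whose order is divisible by `n` at every place; if the class dies under a push forward, the norm of
the function is a constant of that field times an `n`-th power.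
-/

set_option autoImplicit false
set_option maxHeartbeats 1600000

noncomputable section

namespace FermatAgent.BadRed.Carayol

open AlgebraicCurve ModularCurve IntermediateField
open FermatAgent.Curve (divisorOf IsFunctionField1)
open FermatAgent.ModCurveTorsion
open FermatAgent.MazurPrinciple (inertiaField)

local notation "ℚbar" => AlgebraicClosure ℚ
local notation "GQ" => AlgebraicClosure ℚ ≃ₐ[ℚ] AlgebraicClosure ℚ
local notation "𝐅" N:max => laurentBaseChange ℚbar (modularFunctionFieldFull N)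

attribute [local instance] isFunctionField1_laurent

variable (A : ValuationSubring ℚbar) (M : ℕ) [NeZero M]

/-- Series with coefficients in the inertia field inside the geometric field. -/
def fromInertia : laurentBaseChange (inertiaField A) (modularFunctionFieldFull M) →+* 𝐅 M :=
  FermatAgent.ModFun.baseChangeHom (modularFunctionFieldFull M) (inertiaField A).val

omit [NeZero M] in
theorem coe_fromInertia (x : laurentBaseChange (inertiaField A) (modularFunctionFieldFull M)) :
    (fromInertia A M x : LaurentSeries ℚbar) =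
      coeffMap ((inertiaField A).val : inertiaField A →+* ℚbar) (x : LaurentSeries (inertiaField A)) :=
  rfl

omit [NeZero M] in
theorem fromInertia_injective : Function.Injective (fromInertia A M) :=
  FermatAgent.ModFun.baseChangeHom_injective _ _

omit [NeZero M] in
theorem fromInertia_algebraMap (c : inertiaField A) :
    fromInertia A M (algebraMap _ _ c) = algebraMap ℚbar (𝐅 M) (c : ℚbar) :=
  FermatAgent.ModFun.baseChangeHom_algebraMap _ _ c

omit [NeZero M] in
/-- An element fixed by inertia comes from the inertia field. -/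
theorem mem_range_fromInertia {x : 𝐅 M}
    (hx : ∀ σ ∈ A.inertiaSubgroupIn ℚ, galN M σ • x = x) : x ∈ Set.range (fromInertia A M) := by
  have hc : ∀ n : ℤ, (x : LaurentSeries ℚbar).coeff n ∈ inertiaField A := fun n => by
    rw [FermatAgent.MazurPrinciple.mem_inertiaField]
    intro σ hσ
    have h := congrArg (fun y : 𝐅 M => (y : LaurentSeries ℚbar).coeff n) (hx σ hσ)
    simp only [coe_galN_smul, coeffMap_coeff] at h
    exact h
  let y : LaurentSeries (inertiaField A) :=
    { coeff := fun n => ⟨_, hc n⟩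
      isPWO_support' := (x : LaurentSeries ℚbar).isPWO_support'.mono fun n hn h => hn (Subtype.ext h) }
  have hy : coeffMap ((inertiaField A).val : inertiaField A →+* ℚbar) y =
      (x : LaurentSeries ℚbar) := by
    ext n
    rw [coeffMap_coeff]
    rfl
  refine ⟨⟨y, ?_⟩, Subtype.ext hy⟩
  exact (FermatAgent.ModFun.coeffMap_mem_laurentBaseChange_iff (modularFunctionFieldFull M)
    (inertiaField A).val).mp (hy.symm ▸ x.2)

omit [NeZero M] in
/-- A stable finite dimensional space of series is spanned by fixed series. -/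
theorem exists_fixed_spanning (L : Submodule ℚbar (𝐅 M)) [Module.Finite ℚbar L] (G : Set GQ)
    (hL : ∀ σ ∈ G, ∀ x ∈ L, galN M σ • x ∈ L) :
    L ≤ Submodule.span ℚbar {x : 𝐅 M | x ∈ L ∧ ∀ σ ∈ G, galN M σ • x = x} := by
  classical
  let c : ℤ → Module.Dual ℚbar L := fun n =>
    { toFun := fun x => ((x : 𝐅 M) : LaurentSeries ℚbar).coeff n
      map_add' := fun x y => by
        show (((x : 𝐅 M) + (y : 𝐅 M) : 𝐅 M) : LaurentSeries ℚbar).coeff n = _
        rw [AddMemClass.coe_add, HahnSeries.coeff_add]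
      map_smul' := fun a x => by
        show ((a • (x : 𝐅 M) : 𝐅 M) : LaurentSeries ℚbar).coeff n = _
        rw [Algebra.smul_def, MulMemClass.coe_mul, IntermediateField.coe_algebraMap_apply,
          algebraMap_laurentSeries_eq_single]
        simp }
  have hsep : ∀ x : L, (∀ n, c n x = 0) → x = 0 := fun x h =>
    Subtype.ext (Subtype.ext (HahnSeries.ext (funext fun n => h n)))
  have htop : Submodule.span ℚbar (Set.range c) = ⊤ := by
    refine Submodule.span_eq_top_of_ne_zero fun z hz => ?_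
    by_contra hcon
    push Not at hcon
    exact hz (hsep z fun n => hcon (c n) ⟨n, rfl⟩)
  obtain ⟨s, hs, b, hb⟩ : ∃ (s : Set (Module.Dual ℚbar L)) (_ : s ⊆ Set.range c)
      (b : Module.Basis s ℚbar (Module.Dual ℚbar L)), ∀ i, b i = (i : Module.Dual ℚbar L) := by
    obtain ⟨s, hs, hspan, hli⟩ := exists_linearIndependent ℚbar (Set.range c)
    exact ⟨s, hs, Module.Basis.mk hli (by rw [Subtype.range_coe, hspan, htop]),
      fun i => Module.Basis.mk_apply _ _ i⟩
  have : Fintype s := FiniteDimensional.fintypeBasisIndex b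
  let e : s → L := fun i => (Module.evalEquiv ℚbar L).symm (b.coord i)
  have he : ∀ i j : s, (j : Module.Dual ℚbar L) (e i) = if j = i then 1 else 0 := fun i j => by
    have h := Module.apply_evalEquiv_symm_apply (R := ℚbar) (M := L) (j : Module.Dual ℚbar L)
      (b.coord i)
    rw [show e i = (Module.evalEquiv ℚbar L).symm (b.coord i) from rfl, h, ← hb j,
      Module.Basis.coord_apply, b.repr_self, Finsupp.single_apply]
  have huniq : ∀ x y : L, (∀ j : s, (j : Module.Dual ℚbar L) x = (j : Module.Dual ℚbar L) y) →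
      x = y := fun x y h => by
    refine (Module.evalEquiv ℚbar L).injective (b.ext fun j => ?_)
    simp [hb, h j]
  have hfix : ∀ i, ∀ σ ∈ G, galN M σ • ((e i : L) : 𝐅 M) = (e i : 𝐅 M) := by
    intro i σ hσ
    suffices (⟨_, hL σ hσ _ (e i).2⟩ : L) = e i from congrArg Subtype.val this
    refine huniq _ _ fun j => ?_
    obtain ⟨n, hn⟩ := hs j.2
    rw [he i j, ← hn]
    show ((galN M σ • ((e i : L) : 𝐅 M) : 𝐅 M) : LaurentSeries ℚbar).coeff n = _
    rw [coe_galN_smul, coeffMap_coeff]
    have := he i j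
    rw [← hn] at this
    rw [show ((((e i : L) : 𝐅 M)) : LaurentSeries ℚbar).coeff n = c n (e i) from rfl, this]
    split_ifs <;> simp
  intro x hx
  have hsum : (⟨x, hx⟩ : L) = ∑ i : s, (i : Module.Dual ℚbar L) ⟨x, hx⟩ • e i :=
    huniq _ _ fun j => by simp [map_sum, he]
  have h2 := congrArg Subtype.val hsum
  rw [show x = ((⟨x, hx⟩ : L) : 𝐅 M) from rfl, h2, Submodule.coe_sum]
  exact Submodule.sum_mem _ fun i _ =>
    Submodule.smul_mem _ _ (Submodule.subset_span ⟨(e i).2, hfix i⟩)

/-- The cusp `∞` is fixed. -/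
theorem galN_smul_cInf (σ : GQ) :
    galN M σ • FermatAgent.Mazur.Step3.cInf M = FermatAgent.Mazur.Step3.cInf M := by
  set P := FermatAgent.Mazur.Step3.cInf M
  refine Place.ext (SetLike.ext fun f => ?_)
  rcases eq_or_ne f 0 with rfl | hf
  · simp [zero_mem]
  rw [FermatAgent.Curve.RR.mem_iff_ord_nonneg _ hf, FermatAgent.Curve.RR.mem_iff_ord_nonneg _ hf]
  have h : (galN M σ • P).ord (galN M σ • ((galN M σ)⁻¹ • f)) = P.ord ((galN M σ)⁻¹ • f) :=
    SemilinearAut.ord_smul _ _ _
  rw [smul_inv_smul] at h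
  have hord : P.ord ((galN M σ)⁻¹ • f) = P.ord f := by
    rw [show (galN M σ)⁻¹ = galN M σ⁻¹ from (map_inv (arithmeticGalois _) σ).symm,
      FermatAgent.Mazur.Step3.ord_cInf, FermatAgent.Mazur.Step3.ord_cInf, coe_galN_smul]
    have hf' : (f : LaurentSeries ℚbar) ≠ 0 := fun e => hf (Subtype.ext e)
    have hm : coeffMap (σ⁻¹ : GQ).toRingEquiv.toRingHom (f : LaurentSeries ℚbar) ≠ 0 := fun e => by
      apply hf'
      ext n
      have := congrArg (fun y : LaurentSeries ℚbar => y.coeff n) e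
      simpa [coeffMap_coeff] using this
    refine le_antisymm (HahnSeries.order_le_of_coeff_ne_zero ?_)
      (HahnSeries.order_le_of_coeff_ne_zero ?_)
    · rw [coeffMap_coeff]
      exact (map_ne_zero _).mpr (HahnSeries.coeff_order_eq_zero.not.mpr hf')
    · intro h0
      have := congrArg (σ⁻¹ : GQ).toRingEquiv.toRingHom h0
      rw [← coeffMap_coeff, map_zero] at this
      exact HahnSeries.coeff_order_eq_zero.not.mpr hm this
  rw [h, hord]

/-- A stable class of degree zero has a stable divisor. -/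
theorem exists_fixed_divisor_of (G : Set GQ) (x : JZero M) (hx : ∀ σ ∈ G, σ • x = x) :
    ∃ D : Divisor.degZero (K := ℚbar) (F := 𝐅 M), Pic0.mk D = x ∧
      ∀ σ ∈ G, galN M σ • (D : Divisor ℚbar (𝐅 M)) = D := by
  classical
  have := FermatAgent.Curve.instHasPrincipalDivisors (K := ℚbar) (F := 𝐅 M)
  let P : Place ℚbar (𝐅 M) := FermatAgent.Mazur.Step3.cInf M
  obtain ⟨D₀, rfl⟩ := Pic0.mk_surjective x
  have hdeg : ∀ m : ℕ, Divisor.degree ((D₀ : Divisor ℚbar (𝐅 M)) + Finsupp.single P (m : ℤ)) = m :=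
    fun m => by
      rw [map_add, D₀.2, FermatAgent.Curve.RR.degree_single, zero_add]
  have hex : ∃ m : ℕ, 1 ≤ FermatAgent.Curve.RR.ell
      ((D₀ : Divisor ℚbar (𝐅 M)) + Finsupp.single P (m : ℤ)) := by
    refine ⟨genusFF ℚbar (𝐅 M), ?_⟩
    have := FermatAgent.Curve.RR.riemann_inequality (K := ℚbar) (F := 𝐅 M)
      ((D₀ : Divisor ℚbar (𝐅 M)) + Finsupp.single P ((genusFF ℚbar (𝐅 M) : ℕ) : ℤ))
    rw [hdeg] at this
    change ((genusFF ℚbar (𝐅 M) : ℕ) : ℤ) + 1 - (genusFF ℚbar (𝐅 M) : ℤ) ≤ _ at this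
    omega
  set d := Nat.find hex
  set D₁ := (D₀ : Divisor ℚbar (𝐅 M)) + Finsupp.single P (d : ℤ)
  have hd : 1 ≤ FermatAgent.Curve.RR.ell D₁ := Nat.find_spec hex
  have hone : FermatAgent.Curve.RR.ell D₁ = 1 := by
    refine le_antisymm ?_ hd
    rcases Nat.eq_zero_or_pos d with h0 | h0
    · have := FermatAgent.Curve.RR.ell_le_degree_add_one (D := D₁) (by rw [hdeg, h0]; rfl)
      rw [hdeg, h0] at this
      omega
    · have hmin := Nat.find_min hex (show d - 1 < d by omega)
      have hstep := FermatAgent.Curve.RR.ell_add_single_le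
        ((D₀ : Divisor ℚbar (𝐅 M)) + Finsupp.single P ((d - 1 : ℕ) : ℤ)) P
      rw [add_assoc, ← Finsupp.single_add, show ((d - 1 : ℕ) : ℤ) + 1 = (d : ℤ) by omega] at hstep
      change ¬ 1 ≤ FermatAgent.Curve.RR.ell _ at hmin
      change FermatAgent.Curve.RR.ell D₁ ≤ _ at hstep
      omega
  obtain ⟨E, hE, hED⟩ := FermatAgent.Curve.RR.ell_pos_iff.mp hd
  have hEone : FermatAgent.Curve.RR.ell E = 1 := by
    rw [← hone]
    exact FermatAgent.Curve.RR.ell_eq_of_sub_mem_principal hED
  have hdegE : Divisor.degree E = d := by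
    have h0 := FermatAgent.Curve.degree_eq_zero_of_isPrincipal (Divisor.mem_principal.mp hED)
    rw [map_sub, hdeg] at h0
    omega
  let D : Divisor.degZero (K := ℚbar) (F := 𝐅 M) := ⟨E - Finsupp.single P (d : ℤ), by
    rw [Divisor.mem_degZero, map_sub, hdegE, FermatAgent.Curve.RR.degree_single, sub_self]⟩
  have hDD₀ : Pic0.mk D = Pic0.mk D₀ := by
    refine QuotientAddGroup.eq.mpr ?_
    rw [AddSubgroup.mem_addSubgroupOf]
    have : ((-D + D₀ : Divisor.degZero (K := ℚbar) (F := 𝐅 M)) : Divisor ℚbar (𝐅 M)) =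
        -(E - D₁) := by
      show -(E - Finsupp.single P (d : ℤ)) + (D₀ : Divisor ℚbar (𝐅 M)) = _
      simp only [D₁]
      abel
    rw [this]
    exact neg_mem hED
  refine ⟨D, hDD₀, fun σ hσ => ?_⟩
  have hEσ : galN M σ • E = E := by
    refine FermatAgent.Curve.RR.eq_of_ell_eq_one hE (fun v => ?_) hEone ?_
    · rw [SemilinearAut.divisor_smul_apply]
      exact hE _
    · have hfix := hx σ hσ
      rw [← hDD₀, galois_smul_pic0_def, SemilinearAut.pic0_smul_mk] at hfix
      have h2 := AddSubgroup.mem_addSubgroupOf.mp (QuotientAddGroup.eq.mp hfix)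
      change -(galN M σ • (E - Finsupp.single P (d : ℤ))) + (E - Finsupp.single P (d : ℤ)) ∈ _ at h2
      rw [smul_sub, SemilinearAut.smul_single, galN_smul_cInf] at h2
      have h3 := neg_mem h2
      convert h3 using 1
      abel
  show galN M σ • (E - Finsupp.single P (d : ℤ)) = E - Finsupp.single P (d : ℤ)
  rw [smul_sub, SemilinearAut.smul_single, galN_smul_cInf, hEσ]

/-- A fixed principal divisor is the divisor of a fixed function. -/
theorem exists_fixed_fun_of (G : Set GQ) {D : Divisor ℚbar (𝐅 M)}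
    (hD : ∀ σ ∈ G, galN M σ • D = D) {f : 𝐅 M} (hf : f ≠ 0)
    (hfD : D = divisorOf f) :
    ∃ g : 𝐅 M, g ≠ 0 ∧ D = divisorOf g ∧ ∀ σ ∈ G, galN M σ • g = g := by
  have hf' : (f : LaurentSeries ℚbar) ≠ 0 := fun e => hf (Subtype.ext e)
  set m := (f : LaurentSeries ℚbar).order
  set a := (f : LaurentSeries ℚbar).coeff m
  have ha : a ≠ 0 := HahnSeries.coeff_order_eq_zero.not.mpr hf'
  set g : 𝐅 M := algebraMap ℚbar (𝐅 M) a⁻¹ * f
  have hca : ∀ (b : ℚbar) (y : 𝐅 M), ((algebraMap ℚbar (𝐅 M) b * y : 𝐅 M) : LaurentSeries ℚbar).coeff m =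
      b * (y : LaurentSeries ℚbar).coeff m := fun b y => by
    rw [MulMemClass.coe_mul, IntermediateField.coe_algebraMap_apply,
      algebraMap_laurentSeries_eq_single]
    simp
  have hg0 : g ≠ 0 := mul_ne_zero ((map_ne_zero _).mpr (inv_ne_zero ha)) hf
  have hgD : D = divisorOf g := by
    rw [hfD]
    refine Finsupp.ext fun v => ?_
    rw [FermatAgent.Curve.divisorOf_apply, FermatAgent.Curve.divisorOf_apply,
      v.ord_mul ((map_ne_zero _).mpr (inv_ne_zero ha)) hf,
      FermatAgent.Curve.RR.ord_algebraMap v (inv_ne_zero ha), zero_add]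
  have hg1 : (g : LaurentSeries ℚbar).coeff m = 1 := by rw [hca, inv_mul_cancel₀ ha]
  refine ⟨g, hg0, hgD, fun σ hσ => ?_⟩
  set g' := galN M σ • g
  have hg'0 : g' ≠ 0 := (smul_ne_zero_iff_ne _).mpr hg0
  have hg'D : divisorOf (K := ℚbar) g' = divisorOf (K := ℚbar) g := by
    rw [← smul_divisorOf, ← hgD, hD σ hσ]
  obtain ⟨c, hc⟩ : ∃ c : ℚbar, algebraMap ℚbar (𝐅 M) c = g' / g := by
    refine FermatAgent.Curve.forall_ord_eq_zero_iff.mp fun v => ?_
    rw [div_eq_mul_inv, v.ord_mul hg'0 (inv_ne_zero hg0), v.ord_inv,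
      ← FermatAgent.Curve.divisorOf_apply, ← FermatAgent.Curve.divisorOf_apply, hg'D, add_neg_cancel]
  rw [eq_div_iff hg0] at hc
  have h1 : (g' : LaurentSeries ℚbar).coeff m = 1 := by
    rw [coe_galN_smul, coeffMap_coeff, hg1, map_one]
  rw [← hc, hca, hg1, mul_one] at h1
  rw [h1, map_one, one_mul] at hc
  exact hc.symm

/-- A class fixed by inertia has a divisor fixed by inertia. -/
theorem exists_fixed_divisor (x : JZero M) (hx : ∀ σ ∈ A.inertiaSubgroupIn ℚ, σ • x = x) :
    ∃ D : Divisor.degZero (K := ℚbar) (F := 𝐅 M), Pic0.mk D = x ∧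
      ∀ σ ∈ A.inertiaSubgroupIn ℚ, galN M σ • (D : Divisor ℚbar (𝐅 M)) = D :=
  exists_fixed_divisor_of M (A.inertiaSubgroupIn ℚ : Set GQ) x hx

/-- A principal divisor fixed by inertia is the divisor of a function fixed by inertia. -/
theorem exists_fixed_fun {D : Divisor ℚbar (𝐅 M)}
    (hD : ∀ σ ∈ A.inertiaSubgroupIn ℚ, galN M σ • D = D) {f : 𝐅 M} (hf : f ≠ 0)
    (hfD : D = divisorOf f) :
    ∃ g : 𝐅 M, g ≠ 0 ∧ D = divisorOf g ∧ ∀ σ ∈ A.inertiaSubgroupIn ℚ, galN M σ • g = g :=
  exists_fixed_fun_of M (A.inertiaSubgroupIn ℚ : Set GQ) hD hf hfD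

/-- **The function over the inertia field.** -/
theorem exists_function_of_fixed_torsion {n : ℕ} (x : JZero M) (hnx : n • x = 0)
    (hx : ∀ σ ∈ A.inertiaSubgroupIn ℚ, σ • x = x) :
    ∃ (D : Divisor.degZero (K := ℚbar) (F := 𝐅 M))
      (f : laurentBaseChange (inertiaField A) (modularFunctionFieldFull M)),
      Pic0.mk D = x ∧ (∀ σ ∈ A.inertiaSubgroupIn ℚ, galN M σ • (D : Divisor ℚbar (𝐅 M)) = D) ∧
      f ≠ 0 ∧ n • (D : Divisor ℚbar (𝐅 M)) = divisorOf (fromInertia A M f) ∧
      DivisibleOn (inertiaField A) f n := by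
  classical
  obtain ⟨D, hDx, hDfix⟩ := exists_fixed_divisor A M x hx
  have hp : n • (D : Divisor ℚbar (𝐅 M)) ∈ Divisor.principal (K := ℚbar) (F := 𝐅 M) := by
    have h : Pic0.mk (n • D) = 0 := by
      rw [show Pic0.mk (n • D) = n • Pic0.mk D from map_nsmul (QuotientAddGroup.mk' _) n D, hDx, hnx]
    exact AddSubgroup.mem_addSubgroupOf.mp ((QuotientAddGroup.eq_zero_iff _).mp h)
  obtain ⟨f₀, hf₀, hfD₀⟩ := hp
  obtain ⟨g, hg0, hgD, hgfix⟩ := exists_fixed_fun A M
    (D := n • (D : Divisor ℚbar (𝐅 M))) (fun σ hσ => by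
      rw [smul_comm, hDfix σ hσ]) hf₀ (Finsupp.ext hfD₀)
  obtain ⟨f, hf⟩ := mem_range_fromInertia A M hgfix
  have hf0 : f ≠ 0 := fun e => hg0 (by rw [← hf, e, map_zero])
  refine ⟨D, f, hDx, hDfix, hf0, by rw [hf]; exact hgD, fun V hV => ?_⟩
  obtain ⟨U, hU⟩ := exists_extension (fromInertia A M) V
  have hUconst : ∀ a : ℚbar, algebraMap ℚbar (𝐅 M) a ∈ U := fun a => by
    let _ : Algebra (inertiaField A) (𝐅 M) :=
      ((algebraMap ℚbar (𝐅 M)).comp (inertiaField A).val.toRingHom).toAlgebra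
    have hint : IsIntegral (inertiaField A) (algebraMap ℚbar (𝐅 M) a) := by
      have : Algebra.IsIntegral (inertiaField A) ℚbar :=
        ⟨fun z => ((AlgebraicClosure.isAlgebraic ℚ).isAlgebraic z).isIntegral.tower_top⟩
      obtain ⟨p, hp1, hp2⟩ := Algebra.IsIntegral.isIntegral (R := inertiaField A) a
      refine ⟨p, hp1, ?_⟩
      show p.eval₂ ((algebraMap ℚbar (𝐅 M)).comp (algebraMap (inertiaField A) ℚbar)) _ = 0
      rw [← Polynomial.hom_eval₂, hp2, map_zero]
    refine FermatAgent.Curve.mem_valuationSubring_of_isIntegral U (fun r => ?_) hint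
    have h1 : algebraMap _ _ r ∈ V := hV r
    rw [← hU, ValuationSubring.mem_comap, fromInertia_algebraMap] at h1
    exact h1
  rcases eq_or_ne U ⊤ with rfl | hne
  · refine ⟨1, ?_⟩
    have hVt : V = ⊤ := by rw [← hU]; exact SetLike.ext fun y => by simp
    subst hVt
    rw [map_one, one_pow]
    exact (ValuationSubring.valuation_eq_one_iff (A := (⊤ : ValuationSubring _))
      ⟨f, ValuationSubring.mem_top _⟩).mp (IsUnit.of_mul_eq_one ⟨f⁻¹, ValuationSubring.mem_top _⟩
        (Subtype.ext (mul_inv_cancel₀ hf0)))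
  · set P : Place ℚbar (𝐅 M) := FermatAgent.Curve.placeOfValuationSubring U hUconst hne
    set C := FermatAgent.Mazur.Step3.cInf M
    set k := 2 * genusFF ℚbar (𝐅 M)
    set G : Divisor ℚbar (𝐅 M) := -(D : Divisor ℚbar (𝐅 M)) + Finsupp.single C (k : ℤ)
    have hG : 2 * (genusFF ℚbar (𝐅 M) : ℤ) ≤ Divisor.degree G := by
      rw [map_add, map_neg, D.2, FermatAgent.Curve.RR.degree_single, neg_zero, zero_add]
      push_cast [k]
      rfl
    obtain ⟨h₀, hh₀, hh₀0, hordh₀⟩ := FermatAgent.Curve.RR.exists_mem_ord_eq hG P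
    have hstab : ∀ σ ∈ (A.inertiaSubgroupIn ℚ : Set GQ), ∀ y ∈ riemannRochSpace G,
        galN M σ • y ∈ riemannRochSpace G := by
      intro σ hσ y hy
      have hGσ : galN M σ • G = G := by
        rw [smul_add, smul_neg, hDfix σ hσ, SemilinearAut.smul_single, galN_smul_cInf]
      rw [mem_riemannRochSpace_iff] at hy ⊢
      intro v
      rcases hy ((galN M σ)⁻¹ • v) with h | h
      · exact Or.inl (by rw [h, smul_zero])
      · refine Or.inr ?_
        have h2 : v.ord (galN M σ • y) = ((galN M σ)⁻¹ • v).ord y := by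
          have := SemilinearAut.ord_smul (galN M σ) ((galN M σ)⁻¹ • v) y
          rwa [smul_inv_smul] at this
        have h3 : G v = G ((galN M σ)⁻¹ • v) := by
          conv_lhs => rw [← hGσ, SemilinearAut.divisor_smul_apply]
        rw [h2, h3]
        exact h
    obtain ⟨h₁, ⟨hh₁, hfix₁⟩, hh₁0, hord₁⟩ : ∃ h₁ : 𝐅 M, (h₁ ∈ riemannRochSpace G ∧
        ∀ σ ∈ (A.inertiaSubgroupIn ℚ : Set GQ), galN M σ • h₁ = h₁) ∧ h₁ ≠ 0 ∧
          P.ord h₁ = -G P := by
      by_contra hcon
      push Not at hcon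
      have hall : ∀ y ∈ Submodule.span ℚbar {y : 𝐅 M | y ∈ riemannRochSpace G ∧
          ∀ σ ∈ (A.inertiaSubgroupIn ℚ : Set GQ), galN M σ • y = y},
          y = 0 ∨ -G P + 1 ≤ P.ord y := by
        intro y hy
        induction hy using Submodule.span_induction with
        | mem y hy =>
          rcases eq_or_ne y 0 with h0 | h0
          · exact Or.inl h0
          · refine Or.inr ?_
            have h1 := (mem_riemannRochSpace_iff.mp hy.1 P).resolve_left h0
            have h2 := hcon y hy h0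
            omega
        | zero => exact Or.inl rfl
        | add y z _ _ hy hz =>
          rcases eq_or_ne (y + z) 0 with h0 | h0
          · exact Or.inl h0
          · exact Or.inr ((FermatAgent.Curve.RR.le_ord_add P hy hz).resolve_left h0)
        | smul a y _ hy =>
          rcases eq_or_ne a 0 with rfl | ha
          · exact Or.inl (zero_smul _ _)
          rcases hy with rfl | hy
          · exact Or.inl (smul_zero _)
          rcases eq_or_ne y 0 with rfl | hy0
          · exact Or.inl (smul_zero _)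
          refine Or.inr ?_
          rw [Algebra.smul_def, P.ord_mul ((map_ne_zero _).mpr ha) hy0,
            FermatAgent.Curve.RR.ord_algebraMap P ha, zero_add]
          exact hy
      rcases hall h₀ (exists_fixed_spanning M (riemannRochSpace G) _ hstab hh₀) with h | h
      · exact hh₀0 h
      · omega
    have hjfix : ∀ σ ∈ A.inertiaSubgroupIn ℚ,
        galN M σ • FermatAgent.ModFun.jBar ℚbar M = FermatAgent.ModFun.jBar ℚbar M := fun σ _ =>
      Subtype.ext (by rw [coe_galN_smul, FermatAgent.ModFun.coe_jBar, coeffMap_jqModC])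
    have hj0 : FermatAgent.ModFun.jBar ℚbar M ≠ 0 := fun e =>
      jqModC_ne_zero_of_nontrivial ℚbar (congrArg Subtype.val e)
    obtain ⟨h₂, hh₂, hfix₂, hord₂⟩ : ∃ h₂ : 𝐅 M, h₂ ≠ 0 ∧
        (∀ σ ∈ A.inertiaSubgroupIn ℚ, galN M σ • h₂ = h₂) ∧
          P.ord h₂ = (D : Divisor ℚbar (𝐅 M)) P := by
      by_cases hPC : P = C
      · refine ⟨h₁ / FermatAgent.ModFun.jBar ℚbar M ^ k, div_ne_zero hh₁0 (pow_ne_zero _ hj0),
          fun σ hσ => by rw [smul_div₀', smul_pow', hfix₁ σ hσ, hjfix σ hσ], ?_⟩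
        have hjP : P.ord (FermatAgent.ModFun.jBar ℚbar M) = -1 := by
          rw [hPC, FermatAgent.Mazur.Step3.ord_cInf, FermatAgent.ModFun.coe_jBar,
            FermatAgent.Mazur.Step3.order_jqModC]
        rw [div_eq_mul_inv, P.ord_mul hh₁0 (inv_ne_zero (pow_ne_zero _ hj0)), P.ord_inv,
          ← zpow_natCast, P.ord_zpow, hjP, hord₁]
        rw [show G P = -(D : Divisor ℚbar (𝐅 M)) P + (k : ℤ) by simp [G, hPC]]
        ring
      · refine ⟨h₁, hh₁0, hfix₁, ?_⟩
        rw [hord₁, show G P = -(D : Divisor ℚbar (𝐅 M)) P by simp [G, Ne.symm hPC], neg_neg]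
    obtain ⟨g₀, hg₀⟩ := mem_range_fromInertia A M hfix₂
    have hg₀0 : g₀ ≠ 0 := fun e => hh₂ (by rw [← hg₀, e, map_zero])
    refine ⟨g₀, ?_⟩
    set w := f / g₀ ^ n with hw
    have hw0 : w ≠ 0 := div_ne_zero hf0 (pow_ne_zero _ hg₀0)
    have hordw : P.ord (fromInertia A M w) = 0 := by
      have h1 : P.ord g = (n : ℤ) * P.ord h₂ := by
        rw [hord₂, ← FermatAgent.Curve.divisorOf_apply, ← hgD, Finsupp.smul_apply, nsmul_eq_mul]
      rw [hw, map_div₀, map_pow, hf, hg₀, div_eq_mul_inv,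
        P.ord_mul hg0 (inv_ne_zero (pow_ne_zero _ hh₂)), P.ord_inv, ← zpow_natCast, P.ord_zpow, h1,
        add_neg_cancel]
    have hmem : ∀ y : laurentBaseChange (inertiaField A) (modularFunctionFieldFull M), y ≠ 0 →
        0 ≤ P.ord (fromInertia A M y) → V.valuation y ≤ 1 := fun y hy0 hy => by
      rw [V.valuation_le_one_iff, ← hU, ValuationSubring.mem_comap]
      exact (FermatAgent.Curve.RR.mem_iff_ord_nonneg P
        (fun e => hy0 (fromInertia_injective A M (e.trans (map_zero _).symm)))).mpr hy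
    have h1 : V.valuation w = 1 := by
      refine le_antisymm (hmem w hw0 hordw.ge) ?_
      have h2 := hmem w⁻¹ (inv_ne_zero hw0) (by rw [map_inv₀, P.ord_inv, hordw, neg_zero])
      rwa [map_inv₀, inv_le_one₀ (zero_lt_iff.mpr ((map_ne_zero _).mpr hw0))] at h2
    rw [hw, map_div₀, map_pow, div_eq_one_iff_eq (pow_ne_zero _ ((map_ne_zero _).mpr hg₀0))] at h1
    exact h1

end FermatAgent.BadRed.Carayol
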