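import Fermat.Agent.GalRep.Construct.Main
import Fermat.Agent.ModCurve.Forms.IntegralForms
import Fermat.Prelude.Def_CuspForm_Newforms
import Mathlib.RingTheory.Algebraic.Integral

/-!
An eigensystem in the Tate module of `J₀(N)` comes from an eigenform of level `N`, and two
eigenforms with the same eigenvalues at almost all primes agree at all primes away from the
levels. Consequently a newform has no eigensystem in a Tate module of lower level.
-/

set_option autoImplicit false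

noncomputable section

namespace FermatAgent.BadRed.Carayol

open CuspForm Matrix Polynomial FermatAgent.GalRep ModularFormClass CongruenceSubgroup

local notation "ℚbar" => AlgebraicClosure ℚ
local notation "GQ" => AlgebraicClosure ℚ ≃ₐ[ℚ] AlgebraicClosure ℚ

/-- The Hecke eigenvalues at good primes are algebraic integers. -/
theorem isIntegral_qCoeff_prime {N : ℕ} [NeZero N] {g : CuspForm (Gamma0 N) 2}
    (hg : g.IsNormalizedEigenform) {ℓ : ℕ} (hℓ : ℓ.Prime) (hℓN : ¬ ℓ ∣ N) :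
    IsIntegral ℤ (qCoeff g ℓ) := by
  let S : Set ℕ := {q | q.Prime ∧ q ∣ N}
  have hℓS : ℓ ∉ S := fun h => hℓN h.2
  obtain ⟨T⟩ := FermatAgent.ModCurveTorsion.heckeTorsionInput N 2 Nat.prime_two S
    fun q hq hqN => ⟨hq, hqN⟩
  have : Module.Finite ℤ (heckeAlgebra N 2 S) :=
    Module.Finite.of_injective T.ι.toAddMonoidHom.toIntLinearMap T.ι_injective
  obtain ⟨χ, -, hχ, -⟩ := DSLift.exists_ringHom_of_isNormalizedEigenform hg S
  rw [← hχ ℓ hℓ hℓN hℓS]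
  exact IsIntegral.map χ.toIntAlgHom (Algebra.IsIntegral.isIntegral (R := ℤ) _)

/-- A prime number lies in some maximal ideal of the algebraic integers. -/
theorem exists_maximal_over {l : ℕ} (hl : l.Prime) :
    ∃ 𝔪 : Ideal (integralClosure ℤ ℂ), 𝔪.IsMaximal ∧ (l : integralClosure ℤ ℂ) ∈ 𝔪 := by
  have hnu : ¬ IsUnit (l : integralClosure ℤ ℂ) := by
    intro h
    obtain ⟨u, hu⟩ := h
    have h1 : ((u⁻¹ : (integralClosure ℤ ℂ)ˣ) : integralClosure ℤ ℂ).1 = (l : ℂ)⁻¹ := by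
      refine eq_inv_of_mul_eq_one_left ?_
      have := congrArg Subtype.val u.inv_mul
      rw [hu] at this
      simpa using this
    have h2 : IsIntegral ℤ ((l : ℂ)⁻¹) :=
      h1 ▸ ((u⁻¹ : (integralClosure ℤ ℂ)ˣ) : integralClosure ℤ ℂ).2
    have h3 : IsIntegral ℤ ((l : ℚ)⁻¹) := by
      have : algebraMap ℚ ℂ ((l : ℚ)⁻¹) = (l : ℂ)⁻¹ := by rw [map_inv₀, map_natCast]
      rw [← this] at h2
      exact (isIntegral_algHom_iff (IsScalarTower.toAlgHom ℤ ℚ ℂ) (algebraMap ℚ ℂ).injective).mp h2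
    obtain ⟨z, hz⟩ := IsIntegrallyClosed.isIntegral_iff.mp h3
    replace hz : (z : ℚ) * (l : ℚ) = 1 := by
      rw [show (z : ℚ) = ((l : ℚ))⁻¹ from hz, inv_mul_cancel₀ (Nat.cast_ne_zero.mpr hl.ne_zero)]
    · have : z * (l : ℤ) = 1 := by exact_mod_cast hz
      exact hl.ne_one (Nat.dvd_one.mp (Int.natCast_dvd_natCast.mp
        (show ((l : ℕ) : ℤ) ∣ ((1 : ℕ) : ℤ) from ⟨z, by rw [mul_comm, this]; rfl⟩)))
  obtain ⟨𝔪, h𝔪, hle⟩ := Ideal.exists_le_maximal _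
    (mt Ideal.span_singleton_eq_top.mp hnu)
  exact ⟨𝔪, h𝔪, hle (Ideal.mem_span_singleton_self _)⟩

/-- **Agreement at almost all primes implies agreement at all good primes.** -/
theorem qCoeff_eq_of_almost {M N : ℕ} [NeZero M] [NeZero N] {g : CuspForm (Gamma0 M) 2}
    (hg : g.IsNormalizedEigenform) {f : CuspForm (Gamma0 N) 2} (hf : f.IsNormalizedEigenform)
    {T : Set ℕ} (hT : T.Finite)
    (h : ∀ ℓ : ℕ, ℓ.Prime → ℓ ∉ T → ¬ ℓ ∣ M → ¬ ℓ ∣ N → qCoeff f ℓ = qCoeff g ℓ)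
    {ℓ : ℕ} (hℓ : ℓ.Prime) (hℓM : ¬ ℓ ∣ M) (hℓN : ¬ ℓ ∣ N) : qCoeff f ℓ = qCoeff g ℓ := by
  let a : integralClosure ℤ ℂ := ⟨qCoeff g ℓ, isIntegral_qCoeff_prime hg hℓ hℓM⟩
  let b : integralClosure ℤ ℂ := ⟨qCoeff f ℓ, isIntegral_qCoeff_prime hf hℓ hℓN⟩
  suffices b = a from congrArg Subtype.val this
  by_contra hne
  obtain ⟨c, hc0, hcd⟩ := (Algebra.IsAlgebraic.isAlgebraic (R := ℤ) (b - a)).exists_nonzero_dvd
    (mem_nonZeroDivisors_of_ne_zero (sub_ne_zero.mpr hne))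
  obtain ⟨l, hlgt, hl⟩ := Nat.exists_infinite_primes (c.natAbs + ℓ + 1)
  obtain ⟨𝔪, h𝔪, hl𝔪⟩ := exists_maximal_over hl
  let _ : Field (integralClosure ℤ ℂ ⧸ 𝔪) := Ideal.Quotient.field 𝔪
  have hchar : CharP (integralClosure ℤ ℂ ⧸ 𝔪) l := by
    rw [CharP.charP_iff_prime_eq_zero hl, ← map_natCast (Ideal.Quotient.mk 𝔪),
      Ideal.Quotient.eq_zero_iff_mem]
    exact hl𝔪
  have hne0 : ∀ r : ℕ, r.Prime → r ≠ l → (r : integralClosure ℤ ℂ ⧸ 𝔪) ≠ 0 := fun r hr hrl h0 =>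
    hrl ((Nat.prime_dvd_prime_iff_eq hl hr).mp ((CharP.cast_eq_zero_iff _ l r).mp h0)).symm
  obtain ⟨ρg, hρg, -⟩ :=
    exists_residualGaloisRep_isAttachedTo' hg hl (Ideal.Quotient.mk 𝔪)
  obtain ⟨ρf, hρf, -⟩ :=
    exists_residualGaloisRep_isAttachedTo' hf hl (Ideal.Quotient.mk 𝔪)
  have hbad : (T ∪ {r | r ∣ M * N * l}).Finite :=
    hT.union ((Nat.divisors (M * N * l)).finite_toSet.subset fun r hr =>
      Finset.mem_coe.mpr (Nat.mem_divisors.mpr ⟨hr, by simp [NeZero.ne M, NeZero.ne N, hl.ne_zero]⟩))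
  have hall := charpoly_eq_of_frobenius_finiteLevel ρf.finrank_eq ρg.finrank_eq ρf.ρ ρg.ρ
    ρf.factorsThroughFiniteLevel ρg.factorsThroughFiniteLevel hbad fun r hr hrS A hA τ hτ => by
      simp only [Set.mem_union, Set.mem_ofPred_eq, not_or] at hrS
      have hrl : r ≠ l := fun e => hrS.2 (e ▸ dvd_mul_left _ _)
      have hrM : ¬ r ∣ M := fun e => hrS.2 ((e.mul_right N).mul_right l)
      have hrN : ¬ r ∣ N := fun e => hrS.2 ((e.mul_left M).mul_right l)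
      obtain ⟨a', ha', ha2⟩ := hρg r hr hrM (hne0 r hr hrl) A hA τ hτ
      obtain ⟨b', hb', hb2⟩ := hρf r hr hrN (hne0 r hr hrl) A hA τ hτ
      rw [ha2, hb2, show b' = a' from Subtype.ext (hb'.trans ((h r hr hrS.1 hrM hrN).trans ha'.symm))]
  obtain ⟨A, τ, hA, hτ⟩ := RT.exists_place_isFrobeniusAt hℓ
  have hℓl : ℓ ≠ l := by omega
  obtain ⟨a', ha', ha2⟩ := hρg ℓ hℓ hℓM (hne0 ℓ hℓ hℓl) A hA τ hτ
  obtain ⟨b', hb', hb2⟩ := hρf ℓ hℓ hℓN (hne0 ℓ hℓ hℓl) A hA τ hτ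
  have hab := (hb2.symm.trans (hall τ)).trans ha2
  have hab' := congrArg (fun P : (integralClosure ℤ ℂ ⧸ 𝔪)[X] => P.coeff 1) hab
  simp [Polynomial.coeff_X_pow, Polynomial.coeff_C] at hab'
  rw [show b' = b from Subtype.ext hb', show a' = a from Subtype.ext ha', Ideal.Quotient.eq] at hab'
  obtain ⟨e, he⟩ := hcd
  have hcm : ((c : ℤ) : integralClosure ℤ ℂ) ∈ 𝔪 := by
    rw [← eq_intCast (algebraMap ℤ (integralClosure ℤ ℂ)), he]
    exact Ideal.mul_mem_right _ _ hab'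
  have hdvd : (l : ℤ) ∣ c := by
    rw [← CharP.intCast_eq_zero_iff (integralClosure ℤ ℂ ⧸ 𝔪) l, ← map_intCast (Ideal.Quotient.mk 𝔪)]
    exact Ideal.Quotient.eq_zero_iff_mem.mpr hcm
  have := Nat.le_of_dvd (Int.natAbs_pos.mpr hc0) (Int.natCast_dvd.mp hdvd)
  omega

/-- A ring homomorphism to a domain of characteristic zero is injective on a domain which is
integral over `ℤ`. -/
theorem injective_of_integral {A B : Type*} [CommRing A] [IsDomain A] [Algebra.IsIntegral ℤ A]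
    [CommRing B] [IsDomain B] [CharZero B] (f : A →+* B) : Function.Injective f := by
  refine (injective_iff_map_eq_zero f).mpr fun x hx => by_contra fun hx0 => ?_
  obtain ⟨c, hc0, e, he⟩ := (Algebra.IsAlgebraic.isAlgebraic (R := ℤ) x).exists_nonzero_dvd
    (mem_nonZeroDivisors_of_ne_zero hx0)
  have h := congrArg f he
  rw [map_mul, hx, zero_mul, eq_intCast, map_intCast] at h
  exact hc0 (Int.cast_eq_zero.mp h)

/-- A ring homomorphism on a subalgebra of an integral algebra extends. -/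
theorem exists_ringHom_extend {A B : Type*} [CommRing A] [CommRing B] (i : A →+* B)
    (hi : Function.Injective i) (hint : ∀ x : B, IsIntegral ℤ x) (χ : A →+* ℂ) :
    ∃ χ' : B →+* ℂ, χ'.comp i = χ := by
  let _ : Algebra A B := i.toAlgebra
  let _ : Algebra A ℂ := χ.toAlgebra
  have : Algebra.IsIntegral A B := ⟨fun x => (hint x).tower_top⟩
  have : FaithfulSMul A B := (faithfulSMul_iff_algebraMap_injective A B).mpr hi
  have : (RingHom.ker χ).IsPrime := RingHom.ker_isPrime χ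
  obtain ⟨Q, hQ0, hQp, hQ⟩ := Ideal.exists_ideal_over_prime_of_isIntegral (S := B) (RingHom.ker χ)
    (⊥ : Ideal B) (by
      rw [← RingHom.ker_eq_comap_bot, show RingHom.ker (algebraMap A B) = ⊥ from
        (RingHom.injective_iff_ker_eq_bot _).mp hi]
      exact bot_le)
  have : Q.IsPrime := hQp
  have hker : RingHom.ker ((Ideal.Quotient.mk Q).comp i) = RingHom.ker χ := by
    rw [← RingHom.comap_ker, Ideal.mk_ker]
    exact hQ
  let C := A ⧸ RingHom.ker χ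
  let χC : C →+* ℂ := Ideal.Quotient.lift _ χ fun a ha => ha
  let iC : C →+* B ⧸ Q := Ideal.Quotient.lift _ ((Ideal.Quotient.mk Q).comp i) fun a ha =>
    RingHom.mem_ker.mp (hker ▸ ha)
  have hχC : Function.Injective χC := RingHom.lift_injective_of_ker_le_ideal _ _ le_rfl
  have hiC : Function.Injective iC := RingHom.lift_injective_of_ker_le_ideal _ _ hker.le
  let _ : Algebra C ℂ := χC.toAlgebra
  let _ : Algebra C (B ⧸ Q) := iC.toAlgebra
  have : (RingHom.ker χ).IsPrime := RingHom.ker_isPrime χ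
  have : Algebra.IsIntegral C (B ⧸ Q) := ⟨fun x => by
    obtain ⟨y, rfl⟩ := Ideal.Quotient.mk_surjective x
    exact ((hint y).map (Ideal.Quotient.mk Q).toIntAlgHom).tower_top⟩
  have : Algebra.IsAlgebraic C (B ⧸ Q) := Algebra.IsIntegral.isAlgebraic
  have : IsDomain (B ⧸ Q) := Ideal.Quotient.isDomain Q
  have : FaithfulSMul C (B ⧸ Q) := (faithfulSMul_iff_algebraMap_injective C (B ⧸ Q)).mpr hiC
  have : FaithfulSMul C ℂ := (faithfulSMul_iff_algebraMap_injective C ℂ).mpr hχC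
  have : Module.IsTorsionFree C (B ⧸ Q) := Module.isTorsionFree_iff_algebraMap_injective.mpr hiC
  let L : (B ⧸ Q) →ₐ[C] ℂ := IsAlgClosed.lift
  refine ⟨L.toRingHom.comp (Ideal.Quotient.mk Q), RingHom.ext fun a => ?_⟩
  exact L.commutes (Ideal.Quotient.mk _ a)

/-- A complex character of the Hecke algebra gives an eigenform. -/
theorem exists_eigenform_of_character {N : ℕ} [NeZero N] {S : Set ℕ}
    (χ : heckeAlgebra N 2 S →+* ℂ) :
    ∃ f : CuspForm (Gamma0 N) 2, f.IsNormalizedEigenform ∧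
      ∀ (ℓ : ℕ) (hℓ : ℓ.Prime) (hℓN : ¬ ℓ ∣ N) (hℓS : ℓ ∉ S),
        qCoeff f ℓ = χ (heckeAlgebra.T hℓ hℓN hℓS) := by
  have hle : heckeAlgebra N 2 S ≤ heckeAlgebra N 2 (∅ : Set ℕ) := by
    refine Algebra.adjoin_mono ?_
    rintro x (⟨ℓ, hℓ, hℓN, -, rfl⟩ | ⟨q, hqN, hq, -, rfl⟩)
    · exact Or.inl ⟨ℓ, hℓ, hℓN, Set.notMem_empty ℓ, rfl⟩
    · exact Or.inr ⟨q, hqN, hq, Set.notMem_empty q, rfl⟩
  have hint : CuspForm.HasIntegralStructure N 2 :=
    FermatAgent.ModCurve.Forms.hasIntegralStructure_two N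
  have : Module.Finite ℤ (heckeAlgebra N 2 (∅ : Set ℕ)) :=
    DSLift.heckeAlgebra_finite (by norm_num) hint _
  obtain ⟨χ'', hχ''⟩ := exists_ringHom_extend (Subalgebra.inclusion hle).toRingHom
    (Subalgebra.inclusion_injective hle) (fun x => Algebra.IsIntegral.isIntegral x) χ
  obtain ⟨f, hf, hfT, -⟩ := DSLift.exists_normalizedEigenform_of_ringHom hint χ''
  refine ⟨f, hf, fun ℓ hℓ hℓN hℓS => ?_⟩
  rw [hfT ℓ hℓ hℓN]
  exact RingHom.congr_fun hχ'' (heckeAlgebra.T hℓ hℓN hℓS)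

variable {p : ℕ} [Fact p.Prime]

set_option maxHeartbeats 1000000 in
/-- **An eigensystem in the Tate module of level `N` comes from an eigenform of level `N`.** -/
theorem exists_eigenform_of_eigvec {N M : ℕ} [NeZero N] [NeZero M] {S : Set ℕ}
    (hNS : ∀ q : ℕ, q.Prime → q ∣ N → q ∈ S) (hMS : ∀ q : ℕ, q.Prime → q ∣ M → q ∈ S)
    (D : HeckeTateData N p S) (chig : heckeAlgebra M 2 S →+* ℂ) {K : Type} [Field K] [CharZero K]
    (ι : chig.range →+* K) (ψ : ℤ_[p] →+* K) (v : Fin D.rank → K) (hv : v ≠ 0)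
    (h : ∀ (ℓ : ℕ) (hℓ : ℓ.Prime) (hℓN : ¬ ℓ ∣ N) (hℓM : ¬ ℓ ∣ M) (hℓS : ℓ ∉ S),
      ψ.mapMatrix (hecMat D (heckeAlgebra.T hℓ hℓN hℓS)) *ᵥ v =
        ι (chig.rangeRestrict (heckeAlgebra.T hℓ hℓM hℓS)) • v) :
    ∃ f : CuspForm (Gamma0 N) 2, f.IsNormalizedEigenform ∧
      ∀ (ℓ : ℕ) (hℓ : ℓ.Prime), ¬ ℓ ∣ N → ∀ (hℓM : ¬ ℓ ∣ M) (hℓS : ℓ ∉ S),
        qCoeff f ℓ = chig (heckeAlgebra.T hℓ hℓM hℓS) := by
  obtain ⟨T⟩ := FermatAgent.ModCurveTorsion.heckeTorsionInput M 2 Nat.prime_two S hMS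
  have : Module.Finite ℤ (heckeAlgebra M 2 S) :=
    Module.Finite.of_injective T.ι.toAddMonoidHom.toIntLinearMap T.ι_injective
  have : Algebra.IsIntegral ℤ chig.range := ⟨fun x => by
    obtain ⟨y, hy⟩ := chig.rangeRestrict_surjective x
    exact hy ▸ IsIntegral.map chig.rangeRestrict.toIntAlgHom
      (Algebra.IsIntegral.isIntegral (R := ℤ) y)⟩
  have hι := injective_of_integral ι
  let Mt : heckeAlgebra N 2 S →+* Matrix (Fin D.rank) (Fin D.rank) K :=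
    ψ.mapMatrix.comp (hecMat D)
  have hex : ∀ t, ∃ c : chig.range, Mt t *ᵥ v = ι c • v := by
    rintro ⟨t, ht⟩
    induction ht using Algebra.adjoin_induction with
    | mem x hx =>
      rcases hx with ⟨ℓ, hℓ, hℓN, hℓS, rfl⟩ | ⟨q, hqN, hq, hqS, -⟩
      · exact ⟨_, h ℓ hℓ hℓN (fun e => hℓS (hMS ℓ hℓ e)) hℓS⟩
      · exact absurd (hNS q hq hqN) hqS
    | algebraMap r =>
      refine ⟨r, ?_⟩
      rw [show (⟨algebraMap ℤ _ r, (heckeAlgebra N 2 S).algebraMap_mem r⟩ : heckeAlgebra N 2 S) =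
        algebraMap ℤ (heckeAlgebra N 2 S) r from rfl, eq_intCast, map_intCast, map_intCast,
        Int.cast_smul_eq_zsmul, ← zsmul_one (r : ℤ), Matrix.smul_mulVec, Matrix.one_mulVec]
    | add x y hxm hym hx hy =>
      obtain ⟨a, ha⟩ := hx
      obtain ⟨b, hb⟩ := hy
      refine ⟨a + b, ?_⟩
      show Mt (⟨x, hxm⟩ + ⟨y, hym⟩) *ᵥ v = _
      rw [map_add Mt, Matrix.add_mulVec, ha, hb, map_add ι, add_smul]
    | mul x y hxm hym hx hy =>
      obtain ⟨a, ha⟩ := hx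
      obtain ⟨b, hb⟩ := hy
      refine ⟨a * b, ?_⟩
      show Mt (⟨x, hxm⟩ * ⟨y, hym⟩) *ᵥ v = _
      rw [map_mul Mt, ← Matrix.mulVec_mulVec, hb, Matrix.mulVec_smul, ha, smul_smul, map_mul ι,
        mul_comm]
  choose c hc using hex
  have huniq : ∀ {t a}, Mt t *ᵥ v = ι a • v → c t = a := fun {t a} e =>
    hι (smul_left_injective K hv ((hc t).symm.trans e))
  let χ' : heckeAlgebra N 2 S →+* ℂ := (chig.range.subtype).comp
    { toFun := c
      map_one' := huniq (by rw [map_one, map_one, Matrix.one_mulVec, one_smul])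
      map_mul' := fun x y => huniq (by
        rw [map_mul Mt, ← Matrix.mulVec_mulVec, hc y, Matrix.mulVec_smul, hc x, smul_smul,
          map_mul ι, mul_comm])
      map_zero' := huniq (by rw [map_zero, map_zero, Matrix.zero_mulVec, zero_smul])
      map_add' := fun x y => huniq (by
        rw [map_add Mt, Matrix.add_mulVec, hc x, hc y, map_add ι, add_smul]) }
  obtain ⟨f, hf, hfT⟩ := exists_eigenform_of_character χ'
  refine ⟨f, hf, fun ℓ hℓ hℓN hℓM hℓS => ?_⟩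
  rw [hfT ℓ hℓ hℓN hℓS]
  show ((c (heckeAlgebra.T hℓ hℓN hℓS) : chig.range) : ℂ) = _
  rw [huniq (h ℓ hℓ hℓN hℓM hℓS)]
  rfl

/-- A newform has no eigensystem in the Tate module of a proper divisor of its level. -/
theorem not_eigvec_of_isNewform {N M : ℕ} [NeZero N] [NeZero M] {S : Finset ℕ}
    {g : CuspForm (Gamma0 M) 2} (hg : g.IsNewform) (hdvd : N ∣ M) (hne : N ≠ M)
    (hMS : ∀ q : ℕ, q.Prime → q ∣ M → q ∈ S)
    (D : HeckeTateData N p (↑S : Set ℕ)) (chig : heckeAlgebra M 2 (↑S : Set ℕ) →+* ℂ)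
    (hchig : ∀ (ℓ : ℕ) (hℓ : ℓ.Prime) (hℓM : ¬ ℓ ∣ M) (hℓS : ℓ ∉ (↑S : Set ℕ)),
      chig (heckeAlgebra.T hℓ hℓM hℓS) = qCoeff g ℓ)
    {K : Type} [Field K] [CharZero K] (ι : chig.range →+* K) (ψ : ℤ_[p] →+* K)
    (v : Fin D.rank → K)
    (h : ∀ (ℓ : ℕ) (hℓ : ℓ.Prime) (hℓN : ¬ ℓ ∣ N) (hℓM : ¬ ℓ ∣ M) (hℓS : ℓ ∉ (↑S : Set ℕ)),
      ψ.mapMatrix (hecMat D (heckeAlgebra.T hℓ hℓN hℓS)) *ᵥ v =
        ι (chig.rangeRestrict (heckeAlgebra.T hℓ hℓM hℓS)) • v) :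
    v = 0 := by
  by_contra hv
  obtain ⟨f, hf, hfa⟩ := exists_eigenform_of_eigvec
    (fun q hq hqN => hMS q hq (hqN.trans hdvd)) hMS D chig ι ψ v hv h
  refine hg.2 N hdvd hne ⟨f, hf, fun ℓ hℓ hℓM => ?_⟩
  exact qCoeff_eq_of_almost hg.1 hf S.finite_toSet
    (fun r hr hrS hrM hrN => (hfa r hr hrN hrM hrS).trans (hchig r hr hrM hrS))
    hℓ hℓM fun e => hℓM (e.trans hdvd)

end FermatAgent.BadRed.Carayol
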