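import Fermat.Agent.BadRed.Carayol.Assembly.Kill
import Fermat.Agent.BadRed.Carayol.Assembly.Eigen
import Fermat.Agent.BadRed.Carayol.Assembly.Transfer
import Fermat.Agent.BadRed.Carayol.Assembly.MultOne

/-!
The representation attached to a newform of level `Nq²` is not unipotent on inertia at `q`.
-/

set_option autoImplicit false
set_option maxHeartbeats 1600000

noncomputable section

namespace FermatAgent.BadRed.Carayol

open CuspForm Matrix Polynomial AlgebraicCurve ModularCurve FermatAgent.GalRep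
open FermatAgent.ModCurveTorsion (heckeTorsionInput)
open FermatAgent.BadRed.Carayol.Instance (inertiaRing isDiscreteValuationRing_inertiaRing)

local notation "ℚbar" => AlgebraicClosure ℚ
local notation "GQ" => AlgebraicClosure ℚ ≃ₐ[ℚ] AlgebraicClosure ℚ

theorem map_rect_mulVec {R K : Type*} [CommRing R] [CommRing K] (ψ : R →+* K) {a b c : ℕ}
    (A : Matrix (Fin a) (Fin b) R) (B : Matrix (Fin b) (Fin c) R) (v : Fin c → K) :
    A.map ψ *ᵥ (B.map ψ *ᵥ v) = (A * B).map ψ *ᵥ v := by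
  rw [Matrix.mulVec_mulVec, Matrix.map_mul]

/-- The eigenvector is killed by both maps to level `N`. -/
theorem transMat_mulVec_eq_zero {lam : ℕ} [Fact lam.Prime] {M N : ℕ} [NeZero M] [NeZero N]
    {S : Finset ℕ} (hlamS : lam ∈ S) {g : CuspForm (CongruenceSubgroup.Gamma0 M) 2}
    (hg : g.IsNewform) (hdvd : N ∣ M) (hne : N ≠ M)
    (hMS : ∀ q : ℕ, q.Prime → q ∣ M → q ∈ S)
    (chig : heckeAlgebra M 2 (↑S : Set ℕ) →+* ℂ)
    (hchig : ∀ (ℓ : ℕ) (hℓ : ℓ.Prime) (hℓM : ¬ ℓ ∣ M) (hℓS : ℓ ∉ (↑S : Set ℕ)),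
      chig (heckeAlgebra.T hℓ hℓM hℓS) = ModularFormClass.qCoeff g ℓ)
    {K : Type} [Field K] [CharZero K] (ι : chig.range →+* K) (ψ : ℤ_[lam] →+* K)
    (T : HeckeTorsionData M lam (↑S : Set ℕ)) (T' : HeckeTorsionData N lam (↑S : Set ℕ))
    (φ : JZero M →+ JZero N) (hφ : ∀ (σ : GQ) (x : JZero M), σ • φ x = φ (σ • x))
    (v : Fin T.rank → K)
    (hv : ∀ t, ((T.ι t).map (Int.cast : ℤ → ℤ_[lam])).map ψ *ᵥ v = ι (chig.rangeRestrict t) • v) :
    (transMat T T' φ).map ψ *ᵥ v = 0 := by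
  have hNS : ∀ q : ℕ, q.Prime → q ∣ N → q ∈ S := fun q hq hqN => hMS q hq (hqN.trans hdvd)
  let D := heckeTateDataOf T (FermatAgent.ES.torsionUnramified M lam)
    (FermatAgent.ES.torsionFrobQuadratic M lam) hMS
  let D' := heckeTateDataOf T' (FermatAgent.ES.torsionUnramified N lam)
    (FermatAgent.ES.torsionFrobQuadratic N lam) hNS
  refine not_eigvec_of_isNewform hg hdvd hne hMS D' chig hchig ι ψ _ fun ℓ hℓ hℓN hℓM hℓS => ?_
  obtain ⟨B, τ, hB, hτ⟩ := FermatAgent.RT.exists_place_isFrobeniusAt hℓ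
  have hℓlam : ℓ ≠ lam := fun h => hℓS (h ▸ hlamS)
  have hPT := transMat_mul_hecke T T' φ hφ hℓ hℓM hℓS hℓN hℓS
    (D.quad ℓ hℓ hℓM hℓS hℓlam B hB τ hτ) (D'.quad ℓ hℓ hℓN hℓS hℓlam B hB τ hτ)
  show ((T'.ι (heckeAlgebra.T hℓ hℓN hℓS)).map (Int.cast : ℤ → ℤ_[lam])).map ψ *ᵥ
    ((transMat T T' φ).map ψ *ᵥ v) = _ • ((transMat T T' φ).map ψ *ᵥ v)
  rw [map_rect_mulVec, ← hPT, ← map_rect_mulVec, hv, Matrix.mulVec_smul]
  rfl

/-- **Non unipotence at `q`.** -/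
theorem not_isUnipotentOnInertiaAt {lam : ℕ} [Fact lam.Prime] {N q : ℕ} [Fact q.Prime] [NeZero q]
    [NeZero N] (hqN : ¬ q ∣ N) (hqlam : q ≠ lam) {S : Finset ℕ} (hlamS : lam ∈ S)
    {g : CuspForm (CongruenceSubgroup.Gamma0 (N * q * q)) 2} (hg : g.IsNewform)
    (hMS : ∀ r : ℕ, r.Prime → r ∣ N * q * q → r ∈ S)
    {R : Type} [CommRing R] [IsDomain R] [IsDiscreteValuationRing R]
    [IsAdicComplete (IsLocalRing.maximalIdeal R) R] [CharZero R]
    (hp : (lam : R) ∈ IsLocalRing.maximalIdeal R)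
    (chig : heckeAlgebra (N * q * q) 2 (↑S : Set ℕ) →+* ℂ)
    (hchig : ∀ (ℓ : ℕ) (hℓ : ℓ.Prime) (hℓM : ¬ ℓ ∣ N * q * q) (hℓS : ℓ ∉ (↑S : Set ℕ)),
      chig (heckeAlgebra.T hℓ hℓM hℓS) = ModularFormClass.qCoeff g ℓ)
    (iota : chig.range →+* R) (ρ : GaloisRepAdic R)
    (hρ : FrobCompat (iota.comp chig.rangeRestrict) ρ (p := lam))
    (hchart : ∀ (A : ValuationSubring ℚbar), A.LiesOverPrime q →
      ∀ [IsDiscreteValuationRing (inertiaRing A)], ChartInput q A) :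
    ¬ ρ.IsUnipotentOnInertiaAt q := by
  intro hunip
  obtain ⟨A, hA⟩ := FermatAgent.RT.exists_liesOverPrime (Fact.out : q.Prime)
  have := isDiscreteValuationRing_inertiaRing (Fact.out : q.Prime) hA
  obtain ⟨T⟩ := heckeTorsionInput (N * q * q) lam Fact.out (↑S : Set ℕ) hMS
  obtain ⟨T'⟩ := heckeTorsionInput (N * q) lam Fact.out (↑S : Set ℕ)
    fun r hr hrN => hMS r hr (hrN.mul_right q)
  let D := heckeTateDataOf T (FermatAgent.ES.torsionUnramified _ lam)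
    (FermatAgent.ES.torsionFrobQuadratic _ lam) hMS
  let K := FractionRing R
  have : CharZero K := charZero_of_injective_algebraMap (IsFractionRing.injective R K)
  let ψ : ℤ_[lam] →+* K := (algebraMap R K).comp (padicToRing hp)
  obtain ⟨v, hv0, hv, hvfix⟩ : ∃ v : Fin T.rank → K, v ≠ 0 ∧
      (∀ t, ((T.ι t).map (Int.cast : ℤ → ℤ_[lam])).map ψ *ᵥ v =
        ((algebraMap R K).comp iota) (chig.rangeRestrict t) • v) ∧
      ∀ σ ∈ A.inertiaSubgroupIn ℚ, (tateMat T σ).map ψ *ᵥ v = v :=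
    exists_fixed_eigvec D hp (iota.comp chig.rangeRestrict) ρ K
    frobDense hρ (Fact.out : q.Prime) hqlam hA (fun σ hσ => hunip A hA σ hσ)
  have hne : N * q ≠ N * q * q := fun h =>
    (Fact.out : q.Prime).ne_one ((Nat.mul_eq_left (mul_ne_zero (NeZero.ne N) (NeZero.ne q))).mp h.symm)
  have hα : (transMat T T' (pushAlpha (N * q) q)).map ψ *ᵥ v = 0 :=
    transMat_mulVec_eq_zero hlamS hg (dvd_mul_right _ q) hne hMS chig hchig
      ((algebraMap R K).comp iota) ψ T T' _ (galois_smul_pushAlpha (N * q) q) v hv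
  have hβ : (transMat T T' (pushBeta (N * q) q)).map ψ *ᵥ v = 0 :=
    transMat_mulVec_eq_zero hlamS hg (dvd_mul_right _ q) hne hMS chig hchig
      ((algebraMap R K).comp iota) ψ T T' _ (galois_smul_pushBeta (N * q) q) v hv
  obtain ⟨w, hw0, hw⟩ := exists_padicInt_vector ψ v hv0
  have hwα : transMat T T' (pushAlpha (N * q) q) *ᵥ w = 0 :=
    funext fun i => hw _ (congrFun hα i)
  have hwβ : transMat T T' (pushBeta (N * q) q) *ᵥ w = 0 :=
    funext fun i => hw _ (congrFun hβ i)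
  have hwfix : ∀ σ ∈ A.inertiaSubgroupIn ℚ, tateMat T σ *ᵥ w = w := fun σ hσ => by
    have h2 : (tateMat T σ - 1).map ψ *ᵥ v = 0 := by
      rw [Matrix.map_sub ψ (map_sub ψ), Matrix.map_one ψ (map_zero ψ) (map_one ψ), Matrix.sub_mulVec,
        Matrix.one_mulVec, hvfix σ hσ, sub_self]
    have h3 : (tateMat T σ - 1) *ᵥ w = 0 := funext fun i => hw _ (congrFun h2 i)
    rw [Matrix.sub_mulVec, Matrix.one_mulVec, sub_eq_zero] at h3
    exact h3
  obtain ⟨E, hE, hkill⟩ := exists_bound_smul_eq_zero (A := A) N hqN hA (hchart A hA)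
  obtain ⟨k, hk⟩ := exists_smul_torsionPoint_ne_zero T hw0 hE
  refine hk (hkill (lam ^ k) (pow_pos (Fact.out : lam.Prime).pos k) (fun h => hqlam
    ((Nat.prime_dvd_prime_iff_eq Fact.out Fact.out).mp ((Fact.out : q.Prime).dvd_of_dvd_pow h)))
    _ (pow_smul_torsionPoint T w k) (fun σ hσ => galois_smul_torsionPoint T (hwfix σ hσ) k)
    (map_torsionPoint T T' _ hwα k) (map_torsionPoint T T' _ hwβ k))

/-- The representation of S36, given the charts. -/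
theorem exists_galoisRepAdic_not_unipotent_of_chartInput
    (hchart : ∀ (q : ℕ) [Fact q.Prime] [NeZero q] (A : ValuationSubring ℚbar), A.LiesOverPrime q →
      ∀ [IsDiscreteValuationRing (inertiaRing A)], ChartInput q A)
    {M : ℕ} [NeZero M] {g : CuspForm (CongruenceSubgroup.Gamma0 M) 2} (hg : g.IsNewform)
    {lam : ℕ} [Fact lam.Prime] {S : Finset ℕ}
    {R : Type} [CommRing R] [IsDomain R] [IsDiscreteValuationRing R]
    [IsAdicComplete (IsLocalRing.maximalIdeal R) R] [CharZero R]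
    (hp : (lam : R) ∈ IsLocalRing.maximalIdeal R)
    (chig : heckeAlgebra M 2 (↑S : Set ℕ) →+* ℂ)
    (hchig : ∀ (ℓ : ℕ) (hℓ : ℓ.Prime) (hℓM : ¬ ℓ ∣ M) (hℓS : ℓ ∉ (↑S : Set ℕ)),
      chig (heckeAlgebra.T hℓ hℓM hℓS) = ModularFormClass.qCoeff g ℓ)
    (iota : chig.range →+* R) (hlamS : lam ∈ S) (hMS : ∀ q : ℕ, q.Prime → q ∣ M → q ∈ S) :
    ∃ ρ : GaloisRepAdic R,
      (∀ (ℓ : ℕ) (hℓ : ℓ.Prime) (hℓM : ¬ ℓ ∣ M) (hℓS : ℓ ∉ (↑S : Set ℕ)),
        ∀ A : ValuationSubring ℚbar, A.LiesOverPrime ℓ → ∀ σ : GQ, A.IsFrobeniusAt σ ℓ →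
          LinearMap.charpoly (ρ.ρ σ) =
            X ^ 2 - C ((iota.comp chig.rangeRestrict) (heckeAlgebra.T hℓ hℓM hℓS)) * X +
              C ((ℓ : R))) ∧
      (∀ q : ℕ, q.Prime → q ≠ lam → M.factorization q = 2 → ¬ ρ.IsUnipotentOnInertiaAt q) := by
  obtain ⟨ρ, hρ, -, -⟩ :=
    exists_galoisRepAdic_of_point lam M S hlamS hMS R hp (iota.comp chig.rangeRestrict)
  refine ⟨ρ, hρ, fun q hq hqlam hfac => ?_⟩
  have : Fact q.Prime := ⟨hq⟩
  have : NeZero q := ⟨hq.ne_zero⟩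
  obtain ⟨N, rfl⟩ : ∃ N, M = N * q * q := by
    have h := Nat.ordProj_dvd M q
    rw [hfac] at h
    obtain ⟨N, hN⟩ := h
    exact ⟨N, by rw [hN]; ring⟩
  have hqN : ¬ q ∣ N := fun h => by
    have h3 : q ^ 3 ∣ N * q * q := by
      rw [show q ^ 3 = q * q * q by ring]
      exact Nat.mul_dvd_mul_right (Nat.mul_dvd_mul_right h q) q
    have := (hq.pow_dvd_iff_le_factorization (NeZero.ne _)).mp h3
    omega
  have : NeZero N := ⟨fun h => hqN (h ▸ dvd_zero q)⟩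
  exact not_isUnipotentOnInertiaAt hqN hqlam hlamS hg hMS hp chig hchig iota ρ
    (fun ℓ hℓ hℓM hℓS _ => hρ ℓ hℓ hℓM hℓS) (fun A hA => hchart q A hA)

end FermatAgent.BadRed.Carayol
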