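import Fermat.Agent.BadRed.Carayol.Assembly.Witness
import Fermat.Agent.BadRed.Carayol.Assembly.Descent
import Fermat.Agent.BadRed.Carayol.Instance.Tower
import Mathlib.RingTheory.AdjoinRoot
import Mathlib.FieldTheory.Minpoly.Basic

/-!
Norms along maps of prime degree commute with a change of fields which does not collapse the
extension; the cases of a change of constants and of a change of level.
-/

set_option autoImplicit false
set_option maxHeartbeats 1600000

noncomputable section

namespace FermatAgent.BadRed.Carayol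

open ModularCurve IntermediateField
open FermatAgent.BadRed.Carayol.Instance (LevelField degreeAlong)

section General

variable {A₁ A₂ B₁ B₂ : Type*} [Field A₁] [Field A₂] [Field B₁] [Field B₂]

/-- The norm along a field map. -/
def normAlongRing (φ : A₁ →+* A₂) : A₂ →* A₁ :=
  letI := φ.toAlgebra
  Algebra.norm A₁

/-- The degree of a field map. -/
def degreeAlongRing (φ : A₁ →+* A₂) : ℕ :=
  letI := φ.toAlgebra
  Module.finrank A₁ A₂

theorem linearIndependent_pow_of_prime_degree {C₁ C₂ : Type*} [Field C₁] [Field C₂]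
    [Algebra C₁ C₂] [FiniteDimensional C₁ C₂] (z : C₂) {d : ℕ} (hd : d.Prime)
    (hfin : Module.finrank C₁ C₂ = d) (hz : z ∉ Set.range (algebraMap C₁ C₂)) :
    LinearIndependent C₁ (fun i : Fin d => z ^ (i : ℕ)) := by
  have hint : IsIntegral C₁ z := IsIntegral.of_finite C₁ z
  set E := IntermediateField.adjoin C₁ ({z} : Set C₂) with hE
  have : Module.Free C₁ E := Module.Free.of_divisionRing C₁ E
  have : Module.Free E C₂ := Module.Free.of_divisionRing E C₂
  have hmul : Module.finrank C₁ E * Module.finrank E C₂ = Module.finrank C₁ C₂ :=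
    Module.finrank_mul_finrank C₁ E C₂
  have hdeg : Module.finrank C₁ E = (minpoly C₁ z).natDegree :=
    IntermediateField.adjoin.finrank hint
  rcases (Nat.dvd_prime hd).mp (hfin ▸ hdeg ▸ ⟨_, hmul.symm⟩ : (minpoly C₁ z).natDegree ∣ d)
    with h1 | h1
  · refine absurd ?_ hz
    have hb := IntermediateField.finrank_eq_one_iff.mp (hdeg.trans h1)
    exact IntermediateField.mem_bot.mp (hb ▸ IntermediateField.mem_adjoin_simple_self C₁ z)
  · have := linearIndependent_pow (K := C₁) z
    rw [h1] at this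
    exact this

theorem map_normAlongRing {φ : A₁ →+* A₂} {φ' : B₁ →+* B₂} {f₁ : A₁ →+* B₁} {f₂ : A₂ →+* B₂}
    (h : ∀ a, f₂ (φ a) = φ' (f₁ a)) {d : ℕ} (hd : d.Prime) (hφ : degreeAlongRing φ = d)
    (hφ' : degreeAlongRing φ' = d) {y : A₂} (hy : f₂ y ∉ Set.range φ') (x : A₂) :
    f₁ (normAlongRing φ x) = normAlongRing φ' (f₂ x) := by
  classical
  let := φ.toAlgebra
  let := φ'.toAlgebra
  change Module.finrank A₁ A₂ = d at hφ
  change Module.finrank B₁ B₂ = d at hφ'
  have : FiniteDimensional A₁ A₂ := Module.finite_of_finrank_pos (hφ ▸ hd.pos)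
  have : FiniteDimensional B₁ B₂ := Module.finite_of_finrank_pos (hφ' ▸ hd.pos)
  have hy₂ : y ∉ Set.range (algebraMap A₁ A₂) := fun ⟨a, ha⟩ =>
    hy ⟨f₁ a, by rw [← h, ← ha]; rfl⟩
  have : NeZero d := ⟨hd.ne_zero⟩
  let b := basisOfLinearIndependentOfCardEqFinrank (linearIndependent_pow_of_prime_degree y hd hφ hy₂) (by simp [hφ])
  let b' := basisOfLinearIndependentOfCardEqFinrank (linearIndependent_pow_of_prime_degree (f₂ y) hd hφ' hy) (by simp [hφ'])
  have hb : ∀ i, f₂ (b i) = b' i := fun i => by simp [b, b']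
  show f₁ (Algebra.norm A₁ x) = Algebra.norm B₁ (f₂ x)
  rw [Algebra.norm_eq_matrix_det b, Algebra.norm_eq_matrix_det b', RingHom.map_det]
  congr 1
  refine Matrix.ext fun i j => ?_
  have hsum : f₂ x * b' j = ∑ k, f₁ (b.repr (x * b j) k) • b' k := by
    rw [← hb j, ← map_mul]
    conv_lhs => rw [← b.sum_repr (x * b j)]
    rw [map_sum]
    refine Finset.sum_congr rfl fun k _ => ?_
    rw [Algebra.smul_def, Algebra.smul_def, map_mul, hb k]
    congr 1
    exact h _
  rw [RingHom.mapMatrix_apply, Matrix.map_apply, Algebra.leftMulMatrix_eq_repr_mul,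
    Algebra.leftMulMatrix_eq_repr_mul, hsum, map_sum, Finsupp.finsetSum_apply]
  simp [Module.Basis.repr_self, Finsupp.single_apply]

theorem map_valuation_eq (f : A₁ →+* A₂) (V : ValuationSubring A₂) {x g : A₁} (hx : x ≠ 0)
    {n : ℕ} (h : (V.comap f).valuation x = (V.comap f).valuation g ^ n) :
    V.valuation (f x) = V.valuation (f g) ^ n := by
  have hx' : (V.comap f).valuation x ≠ 0 := (map_ne_zero _).mpr hx
  have hg : g ^ n ≠ 0 := fun e => hx' (by rw [h, ← map_pow, e, map_zero])
  have hval : (V.comap f).valuation (x / g ^ n) = 1 := by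
    rw [map_div₀, map_pow, ← h, div_self hx']
  have hfw : f (x / g ^ n) ≠ 0 := (map_ne_zero f).mpr (div_ne_zero hx hg)
  have h1 : V.valuation (f (x / g ^ n)) ≤ 1 :=
    (V.valuation_le_one_iff _).mpr (((V.comap f).valuation_le_one_iff _).mp hval.le)
  have h2 : V.valuation (f (x / g ^ n))⁻¹ ≤ 1 := by
    rw [← map_inv₀ f]
    refine (V.valuation_le_one_iff _).mpr (((V.comap f).valuation_le_one_iff _).mp ?_)
    rw [map_inv₀, hval, inv_one]
  rw [map_inv₀, inv_le_one₀ (zero_lt_iff.mpr ((map_ne_zero _).mpr hfw))] at h2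
  have h3 := le_antisymm h1 h2
  rw [map_div₀ f, map_div₀, map_pow f, map_pow,
    div_eq_one_iff_eq (by rw [← map_pow, ← map_pow f]; exact (map_ne_zero _).mpr ((map_ne_zero f).mpr hg))]
    at h3
  exact h3

end General

section Level

variable (K : Type*) [Field K] [Algebra ℚ K]

/-- A function of level `L` as a function of a multiple level. -/
def levelIncl {L L' : ℕ} [NeZero L] [NeZero L'] (h : L ∣ L') :
    LevelField K L →ₐ[K] LevelField K L' :=
  IntermediateField.inclusion (IntermediateField.adjoin.mono K _ _ (Set.image_mono (full_degeneracy_le h)))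

theorem coe_levelIncl {L L' : ℕ} [NeZero L] [NeZero L'] (h : L ∣ L') (x : LevelField K L) :
    (levelIncl K h x : LaurentSeries K) = x :=
  IntermediateField.coe_inclusion _ x

variable {q : ℕ} [NeZero q] {L L' : ℕ} [NeZero L] [NeZero L']

theorem levelIncl_alpha (h : L ∣ L') (x : LevelField K L) :
    levelIncl K (Nat.mul_dvd_mul_right h q) (heckeAlphaBar K L q x) =
      heckeAlphaBar K L' q (levelIncl K h x) :=
  Subtype.ext (by simp [coe_levelIncl])

theorem levelIncl_beta (h : L ∣ L') (x : LevelField K L) :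
    levelIncl K (Nat.mul_dvd_mul_right h q) (heckeBetaBar K L q x) =
      heckeBetaBar K L' q (levelIncl K h x) :=
  Subtype.ext (by simp [coe_levelIncl])

/-- `j` is not in the image of the second degeneracy map. -/
theorem jBar_notMem_range_beta (hq : 1 < q) :
    FermatAgent.ModFun.jBar K (L * q) ∉ Set.range (heckeBetaBar K L q) := by
  rintro ⟨z, hz⟩
  have h := congrArg (fun y : LevelField K (L * q) => (y : LaurentSeries K).coeff (-1)) hz
  simp only [coe_heckeBetaBar, FermatAgent.ModFun.coe_jBar, coeff_jqModC_neg_one] at h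
  rw [qExpand_coeff_of_not_dvd] at h
  · exact zero_ne_one h
  · intro hd
    have := Int.le_of_dvd one_pos (dvd_neg.mp hd)
    omega

/-- `j(dτ)` at a level which `d` divides. -/
def jdElt (d : ℕ) [NeZero d] (h : d ∣ L) : LevelField K L :=
  ⟨coeffEmb K (qExpand ℚ d jq), coeffEmb_mem_laurentBaseChange K (jqd_mem_full L h)⟩

theorem jdElt_notMem_range_alpha {d : ℕ} [NeZero d] (h : d ∣ L * q) (hd : ¬ d ∣ L) :
    jdElt K d h ∉ Set.range (heckeAlphaBar K L q) := by
  rintro ⟨z, hz⟩
  have h1 : ((z : LevelField K L) : LaurentSeries K) = coeffEmb K (qExpand ℚ d jq) := by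
    have h2 := congrArg (fun y : LevelField K (L * q) => (y : LaurentSeries K)) hz
    simpa [jdElt] using h2
  exact hd (dvd_of_jd_mem_full
    ((FermatAgent.ModFun.coeffEmb_mem_laurentBaseChange_iff _ K).mp (h1 ▸ z.2)))

end Level

section Constants

variable {K K' : Type*} [Field K] [Field K'] [Algebra ℚ K] [Algebra ℚ K'] (ι : K →ₐ[ℚ] K')

/-- A map of prime degree cannot absorb all functions over a smaller field. -/
theorem exists_baseChange_notMem_range {L L' : ℕ} [NeZero L] [NeZero L'] {d : ℕ} (hd : d ≠ 1)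
    (φ : LevelField K' L →ₐ[K'] LevelField K' L') (hφ : degreeAlong φ = d) :
    ∃ y : LevelField K L', FermatAgent.ModFun.baseChangeHom _ ι y ∉ Set.range φ := by
  by_contra hcon
  push Not at hcon
  refine hd (hφ.symm.trans ?_)
  rw [Instance.degreeAlong_eq_fieldRange]
  have htop : φ.fieldRange = ⊤ := by
    refine IntermediateField.map_injective (LevelField K' L').val ?_
    rw [← AlgHom.fieldRange_eq_map, IntermediateField.fieldRange_val]
    refine le_antisymm ?_ (IntermediateField.adjoin_le_iff.mpr ?_)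
    · rintro _ ⟨x, -, rfl⟩
      exact x.2
    · rintro _ ⟨z, hz, rfl⟩
      obtain ⟨w, hw⟩ := hcon ⟨coeffEmb K z, coeffEmb_mem_laurentBaseChange K hz⟩
      refine ⟨φ w, ⟨w, rfl⟩, ?_⟩
      rw [hw]
      exact FermatAgent.ModFun.coeffMap_comp_coeffEmb ι z
  rw [htop]
  exact IntermediateField.finrank_top

theorem baseChangeHom_alpha {L q : ℕ} [NeZero L] [NeZero q] (x : LevelField K L) :
    FermatAgent.ModFun.baseChangeHom _ ι (heckeAlphaBar K L q x) =
      heckeAlphaBar K' L q (FermatAgent.ModFun.baseChangeHom _ ι x) :=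
  Subtype.ext (by simp)

theorem baseChangeHom_beta {L q : ℕ} [NeZero L] [NeZero q] (x : LevelField K L) :
    FermatAgent.ModFun.baseChangeHom _ ι (heckeBetaBar K L q x) =
      heckeBetaBar K' L q (FermatAgent.ModFun.baseChangeHom _ ι x) :=
  Subtype.ext (by simp [coeffMap_qExpand])

theorem baseChangeHom_levelIncl {L L' : ℕ} [NeZero L] [NeZero L'] (h : L ∣ L') (x : LevelField K L) :
    FermatAgent.ModFun.baseChangeHom _ ι (levelIncl K h x) =
      levelIncl K' h (FermatAgent.ModFun.baseChangeHom _ ι x) :=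
  Subtype.ext (by simp [coe_levelIncl])

/-- The norm of the tower commutes with a change of constants. -/
theorem baseChangeHom_norm {L L' : ℕ} [NeZero L] [NeZero L'] {d : ℕ} (hd : d.Prime)
    (φ : LevelField K L →ₐ[K] LevelField K L') (φ' : LevelField K' L →ₐ[K'] LevelField K' L')
    (hφ : degreeAlong φ = d) (hφ' : degreeAlong φ' = d)
    (h : ∀ x, FermatAgent.ModFun.baseChangeHom _ ι (φ x) = φ' (FermatAgent.ModFun.baseChangeHom _ ι x))
    (x : LevelField K L') :
    FermatAgent.ModFun.baseChangeHom _ ι (normAlongRing φ.toRingHom x) =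
      normAlongRing φ'.toRingHom (FermatAgent.ModFun.baseChangeHom _ ι x) := by
  obtain ⟨y, hy⟩ := exists_baseChange_notMem_range ι hd.ne_one φ' hφ'
  exact map_normAlongRing (φ := φ.toRingHom) (φ' := φ'.toRingHom) h hd hφ hφ' hy x

end Constants

end FermatAgent.BadRed.Carayol
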