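import Mathlib.LinearAlgebra.FiniteDimensional.Basic
import Mathlib.RingTheory.Artinian.Module
import Mathlib.Tactic.LinearCombination
import Mathlib.Tactic.Module

/-!
A group of automorphisms of a finite dimensional space in characteristic zero, each of which is
unipotent of order two, has a common fixed vector.
-/

set_option autoImplicit false

noncomputable section

namespace FermatAgent.BadRed.Carayol

variable {K : Type*} [Field K] [CharZero K] {W : Type*} [AddCommGroup W] [Module K W]

/-- Square zero parts of two elements of such a group anticommute. -/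
theorem anticommute_of_sq_zero {a b : Module.End K W} (_ha : a * a = 0) (hb : b * b = 0)
    (h : ∀ k : ℕ, ((1 + (k : K) • a) * (1 + b) - 1) * ((1 + (k : K) • a) * (1 + b) - 1) = 0) :
    a * b + b * a = 0 := by
  set c := a + a * b with hc
  have he : ∀ k : ℕ, (1 + (k : K) • a) * (1 + b) - 1 = b + (k : K) • c := fun k => by
    rw [hc, add_mul, one_mul, mul_add, mul_one, smul_mul_assoc, smul_add]
    abel
  simp only [he] at h
  have hexp : ∀ k : ℕ, (k : K) • ((k : K) • (c * c) + (c * b + b * c)) = 0 := fun k => by
    have := h k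
    rw [add_mul, mul_add, mul_add, hb, zero_add, smul_mul_assoc, mul_smul_comm, smul_mul_assoc,
      mul_smul_comm] at this
    linear_combination (norm := module) this
  have h1 : c * c + (c * b + b * c) = 0 := by simpa using hexp 1
  have h2 : (2 : K) • (c * c) + (c * b + b * c) = 0 :=
    (smul_eq_zero.mp (hexp 2)).resolve_left (by norm_num)
  have hcc : c * c = 0 := by linear_combination (norm := module) h2 - h1
  rw [hcc, zero_add, hc, add_mul, mul_assoc a b b, hb, mul_zero, add_zero, mul_add] at h1
  have h3 : b * (a * b) = 0 := by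
    have := congrArg (b * ·) h1
    simp only [mul_zero, mul_add, ← mul_assoc b b, hb, zero_mul, add_zero] at this
    exact this
  rwa [h3, add_zero] at h1

variable [FiniteDimensional K W] [Nontrivial W]

/-- The common fixed vector. -/
theorem exists_common_fixed {G : Type*} [Group G] (r : G →* Module.End K W)
    (h : ∀ g, (r g - 1) * (r g - 1) = 0) : ∃ w : W, w ≠ 0 ∧ ∀ g, r g w = w := by
  set n : G → Module.End K W := fun g => r g - 1 with hn
  have hn2 : ∀ g, n g * n g = 0 := h
  have hpow : ∀ (g : G) (k : ℕ), r (g ^ k) = 1 + (k : K) • n g := by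
    intro g k
    induction k with
    | zero => simp
    | succ k ih =>
      have hg : r g = 1 + n g := by simp [n]
      rw [pow_succ, map_mul, ih, hg, add_mul, one_mul, mul_add, mul_one, smul_mul_assoc, hn2,
        smul_zero, add_zero, add_assoc, Nat.cast_succ, add_smul, one_smul]
      abel
  have hanti : ∀ g g', n g * n g' + n g' * n g = 0 := fun g g' =>
    anticommute_of_sq_zero (hn2 g) (hn2 g') fun k => by
      have := h (g ^ k * g')
      rwa [map_mul, hpow, show r g' = 1 + n g' by simp [n]] at this
  obtain ⟨U, ⟨hU0, hU⟩, hmin⟩ := (wellFounded_lt (α := Submodule K W)).has_min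
    {U : Submodule K W | U ≠ ⊥ ∧ ∀ g, ∀ w ∈ U, n g w ∈ U} ⟨⊤, top_ne_bot, fun _ _ _ => trivial⟩
  obtain ⟨w, hwU, hw⟩ := Submodule.exists_mem_ne_zero_of_ne_bot hU0
  by_contra hcon
  push Not at hcon
  obtain ⟨g, hg⟩ := hcon w hw
  have hgw : n g w ≠ 0 := fun h0 => hg (by simpa [n, sub_eq_zero] using h0)
  have hle : U.map (n g) ≤ U := Submodule.map_le_iff_le_comap.mpr fun x hx => hU g x hx
  have hne : U.map (n g) ≠ U := fun heq => by
    obtain ⟨x, -, hx⟩ : w ∈ U.map (n g) := heq.symm ▸ hwU
    apply hgw
    rw [← hx, ← Module.End.mul_apply, hn2, LinearMap.zero_apply]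
  refine hmin (U.map (n g)) ⟨fun h0 => hgw ?_, fun g' x hx => ?_⟩ (lt_of_le_of_ne hle hne)
  · exact (Submodule.mem_bot K).mp (h0 ▸ Submodule.mem_map_of_mem hwU)
  · obtain ⟨y, hy, rfl⟩ := hx
    refine ⟨-(n g' y), neg_mem (hU g' y hy), ?_⟩
    rw [map_neg, ← Module.End.mul_apply, ← Module.End.mul_apply, ← LinearMap.neg_apply,
      neg_eq_of_add_eq_zero_right (hanti g g')]

end FermatAgent.BadRed.Carayol
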