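import Fermat.Agent.ModCurve.Fun.AtkinLehner
import Fermat.Agent.ModCurve.Fun.Instances

/-!
`j(dτ)` lies in the function field of level `L` only if `d ∣ L`.
-/

set_option autoImplicit false

noncomputable section

namespace FermatAgent.BadRed.Carayol

open UpperHalfPlane hiding I
open ModularCurve FermatAgent.ModFun CongruenceSubgroup
open scoped MatrixGroups

/-- If `j(dτ)` is a function of level `L` then `d ∣ L`. -/
theorem dvd_of_jd_mem_full {L d : ℕ} [NeZero L] [NeZero d]
    (h : qExpand ℚ d jq ∈ modularFunctionFieldFull L) : d ∣ L := by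
  let x : laurentBaseChange ℂ (modularFunctionFieldFull L) :=
    toBaseChange ℂ (modularFunctionFieldFull L) ⟨qExpand ℚ d jq, h⟩
  obtain ⟨a, b, hb, hx⟩ := exists_levelRing_div L x
  have hd : jd d ∈ levelRing d := jd_mem_levelRing dvd_rfl
  have hmul : x * levelToField L b = levelToField L a := by rw [hx, div_mul_cancel₀ _ hb]
  have hfun : jd d * (b : ℍ → ℂ) = (a : ℍ → ℂ) := by
    let J : cuspRing := ⟨jd d, levelRing_le_cuspRing d hd⟩
    let B : cuspRing := ⟨(b : ℍ → ℂ), levelRing_le_cuspRing L b.2⟩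
    let A : cuspRing := ⟨(a : ℍ → ℂ), levelRing_le_cuspRing L a.2⟩
    refine congrArg Subtype.val (qLaurentHom_injective (?_ : qLaurentHom (J * B) = qLaurentHom A))
    rw [map_mul, qLaurentHom_apply, qLaurentHom_apply, qLaurentHom_apply]
    have h1 := congrArg (fun z : laurentBaseChange ℂ (modularFunctionFieldFull L) =>
      (z : LaurentSeries ℂ)) hmul
    simp only [MulMemClass.coe_mul, coe_levelToField] at h1
    rw [show qLaurent (J : ℍ → ℂ) = ((x : laurentBaseChange ℂ (modularFunctionFieldFull L)) :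
        LaurentSeries ℂ) by
      show qLaurent (jd d) = _
      rw [coe_toBaseChange, coeffEmb_qExpand, qLaurent_jd]]
    exact h1
  have hinv : ∀ γ ∈ Gamma0 L, γ ∈ Gamma0 d := by
    intro γ hγ
    rw [← jd_smul_eq_iff d γ]
    intro τ
    let u : tameRing :=
      ⟨(fun τ : ℍ => jd d (γ • τ)) - jd d, Subalgebra.sub_mem _ (mem_tameRing_comp_smul hd γ)
        (by simpa using mem_tameRing_comp_smul hd 1)⟩
    let B : tameRing := ⟨(b : ℍ → ℂ), by simpa using mem_tameRing_comp_smul b.2 1⟩
    have huB : u * B = 0 := by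
      refine Subtype.ext (funext fun τ => ?_)
      show (jd d (γ • τ) - jd d τ) * (b : ℍ → ℂ) τ = 0
      have h1 := congrFun hfun (γ • τ)
      have h2 := congrFun hfun τ
      simp only [Pi.mul_apply, b.2.2.1 γ hγ τ, a.2.2.1 γ hγ τ] at h1 h2
      rw [sub_mul, h1, h2, sub_self]
    rcases mul_eq_zero.mp huB with h0 | h0
    · have h1 : jd d (γ • τ) - jd d τ = 0 := congrFun (congrArg Subtype.val h0) τ
      exact sub_eq_zero.mp h1
    · exact absurd (by rw [show b = 0 from Subtype.ext (congrArg Subtype.val h0 :), map_zero]) hb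
  let γ : SL(2, ℤ) := ⟨!![1, 0; (L : ℤ), 1], by simp [Matrix.det_fin_two]⟩
  have hγ : γ ∈ Gamma0 L := by
    rw [Gamma0_mem, ZMod.intCast_zmod_eq_zero_iff_dvd]
    simp [γ]
  have := hinv γ hγ
  rw [Gamma0_mem, ZMod.intCast_zmod_eq_zero_iff_dvd] at this
  exact Int.natCast_dvd_natCast.mp (by simpa [γ] using this)

end FermatAgent.BadRed.Carayol
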